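import Fermat.Agent.Viazovska.MagicPart
import Mathlib.Analysis.Complex.HasPrimitives
import Mathlib.MeasureTheory.Integral.IntegralEqImproper

/-!
# The closed formula for the magic transform

With `P(z) = Ψ(-1/z) z²` and `P = p + R`, `p(z) = α exp (-2 π i z) + β z + γ`, a primitive of
`P(z) exp (π i u z)` turns the magic transform into `(2 cos π u - 2)` times integrals along `i ℝ`
plus an elementary term.
-/

set_option autoImplicit false

noncomputable section

open Complex MeasureTheory Set Filter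
open scoped Real Topology

namespace FA.Viazovska

/-- A holomorphic function on the upper half plane has a primitive there. -/
theorem exists_primitive {f : ℂ → ℂ} (hf : ∀ z : ℂ, 0 < z.im → DifferentiableAt ℂ f z) :
    ∃ G : ℂ → ℂ, ∀ z : ℂ, 0 < z.im → HasDerivAt G (f z) z := by
  set B : ℕ → Set ℂ := fun n => Metric.ball (((n : ℝ) + 1 : ℝ) * I) ((n : ℝ) + 1) with hB
  have hH : ∀ n, ∀ z ∈ B n, 0 < z.im := fun n z hz => by
    have h1 := (abs_im_le_norm (z - (((n : ℝ) + 1 : ℝ) : ℂ) * I)).trans_lt (mem_ball_iff_norm.1 hz)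
    rw [Complex.sub_im, Complex.im_ofReal_mul, Complex.I_im, mul_one] at h1
    linarith [(abs_lt.1 h1).1]
  have hI : ∀ n, I ∈ B n := fun n => by
    rw [hB, mem_ball_iff_norm, show I - (((n : ℝ) + 1 : ℝ) : ℂ) * I = (((-n : ℝ)) : ℂ) * I by
      push_cast; ring, norm_mul, Complex.norm_I, mul_one, Complex.norm_real, norm_neg,
      Real.norm_natCast]
    linarith
  choose g hgI hg using fun n : ℕ => (DifferentiableOn.isExactOn_ball
    (c := (((n : ℝ) + 1 : ℝ) : ℂ) * I)
    (r := (n : ℝ) + 1) fun z hz => (hf z (hH n z hz)).differentiableWithinAt).with_val_at I 0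
  have heq : ∀ m n, ∀ z ∈ B m ∩ B n, g m z = g n z := fun m n z hz => by
    have hc : Convex ℝ (B m ∩ B n) := (convex_ball _ _).inter (convex_ball _ _)
    have hd : ∀ w ∈ B m ∩ B n, HasDerivAt (fun w => g m w - g n w) 0 w := fun w hw => by
      exact ((hg m w hw.1).sub (hg n w hw.2)).congr_deriv (sub_self _)
    have := hc.norm_image_sub_le_of_norm_hasDerivWithin_le (C := 0)
      (fun w hw => (hd w hw).hasDerivWithinAt) (fun w _ => by simp) ⟨hI m, hI n⟩ hz
    rw [zero_mul, hgI, hgI, sub_zero, sub_zero, norm_le_zero_iff, sub_eq_zero] at this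
    exact this
  have hmem : ∀ z : ℂ, 0 < z.im → ∃ n, z ∈ B n := fun z hz => by
    refine ⟨⌈‖z‖ ^ 2 / z.im⌉₊, mem_ball_iff_norm.2 ?_⟩
    set R : ℝ := (⌈‖z‖ ^ 2 / z.im⌉₊ : ℝ) + 1
    have hR : ‖z‖ ^ 2 / z.im < R := lt_of_le_of_lt (Nat.le_ceil _) (lt_add_one _)
    rw [div_lt_iff₀ hz] at hR
    have h2 : ‖z - (R : ℂ) * I‖ ^ 2 = ‖z‖ ^ 2 - 2 * R * z.im + R ^ 2 := by
      rw [Complex.sq_norm, Complex.sq_norm, Complex.normSq_apply, Complex.normSq_apply]
      simp; ring
    exact lt_of_pow_lt_pow_left₀ 2 (by positivity) (by nlinarith)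
  classical
  refine ⟨fun z => if h : ∃ n, z ∈ B n then g (Nat.find h) z else 0, fun z hz => ?_⟩
  obtain ⟨n, hn⟩ := hmem z hz
  refine (hg n z hn).congr_of_eventuallyEq ?_
  filter_upwards [Metric.isOpen_ball.mem_nhds hn] with w hw
  rw [dif_pos ⟨n, hw⟩]
  exact heq _ _ _ ⟨Nat.find_spec (p := fun k => w ∈ B k) ⟨n, hw⟩, hw⟩

/-- All the vertical rays of a small strip lead to one value of a primitive. -/
theorem exists_ray_value {G g : ℂ → ℂ} (hG : ∀ z : ℂ, 0 < z.im → HasDerivAt G (g z) z)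
    (hg : ∀ z : ℂ, 0 < z.im → DifferentiableAt ℂ g z) {C : ℝ}
    (hC : ∀ z : ℂ, 1 ≤ z.im → |z.re| ≤ 1 → ‖g z‖ ≤ C * Real.exp (-(π / 2) * z.im)) :
    ∃ L : ℂ, ∀ x y₀ : ℝ, |x| ≤ 1 → 0 < y₀ →
      IntegrableOn (fun y => g (rayPt x y) * I) (Ioi y₀) ∧
      ∫ y in Ioi y₀, g (rayPt x y) * I = L - G (rayPt x y₀) := by
  have hd : ∀ x y : ℝ, 0 < y → HasDerivAt (fun y => G (rayPt x y)) (g (rayPt x y) * I) y :=
    fun x y hy => by
    refine (hG (rayPt x y) (by rw [im_rayPt]; exact hy)).comp y ?_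
    exact (((Complex.ofRealCLM.hasDerivAt (x := y)).mul_const I).const_add (x : ℂ)).congr_deriv
      (by simp)
  have hcont : ∀ x, ContinuousOn (fun y => g (rayPt x y) * I) (Ioi 0) := fun x y hy =>
    (((hg _ (by rw [im_rayPt]; exact hy)).continuousAt.comp
      (continuous_rayPt x).continuousAt).mul continuousAt_const).continuousWithinAt
  have hint : ∀ x y₀ : ℝ, |x| ≤ 1 → 0 < y₀ →
      IntegrableOn (fun y => g (rayPt x y) * I) (Ioi y₀) := fun x y₀ hx hy₀ => by
    have h1 : IntegrableOn (fun y => g (rayPt x y) * I) (Ioi (max y₀ 1)) := by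
      refine ((exp_neg_integrableOn_Ioi _ (show 0 < π / 2 by positivity)).const_mul C).mono'
        (((hcont x).mono fun y (hy : max y₀ 1 < y) => hy₀.trans_le
          ((le_max_left y₀ 1).trans hy.le)).aestronglyMeasurable measurableSet_Ioi) ?_
      refine (ae_restrict_iff' measurableSet_Ioi).2 (Eventually.of_forall fun y hy => ?_)
      have hy' : 1 ≤ y := (le_max_right y₀ 1).trans hy.le
      rw [norm_mul, Complex.norm_I, mul_one]
      have := hC (rayPt x y) (by rwa [im_rayPt]) (by rwa [re_rayPt])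
      rwa [im_rayPt] at this
    have h2 : IntegrableOn (fun y => g (rayPt x y) * I) (Icc y₀ (max y₀ 1)) :=
      ((hcont x).mono fun y hy => hy₀.trans_le hy.1).integrableOn_compact isCompact_Icc
    refine (h2.union h1).mono_set fun y hy => ?_
    rcases le_or_gt y (max y₀ 1) with h | h
    · exact Or.inl ⟨le_of_lt hy, h⟩
    · exact Or.inr h
  obtain ⟨L, hL⟩ : ∃ L, Tendsto (fun y => G (rayPt 0 y)) atTop (𝓝 L) :=
    ⟨_, tendsto_limUnder_of_hasDerivAt_of_integrableOn_Ioi (a := 1)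
      (fun y hy => hd 0 y (lt_trans one_pos hy)) (hint 0 1 (by norm_num) one_pos)⟩
  refine ⟨L, fun x y₀ hx hy₀ => ⟨hint x y₀ hx hy₀, ?_⟩⟩
  refine integral_Ioi_of_hasDerivAt_of_tendsto'
    (fun y hy => hd x y (hy₀.trans_le hy)) (hint x y₀ hx hy₀) ?_
  have hsmall : Tendsto (fun y => G (rayPt x y) - G (rayPt 0 y)) atTop (𝓝 0) := by
    refine squeeze_zero_norm' (a := fun y => C * Real.exp (-(π / 2) * y) * |x|)
      ((eventually_ge_atTop 1).mono fun y hy => ?_) ?_
    · have hh : ∀ t ∈ uIcc 0 x, HasDerivWithinAt (fun t => G (rayPt t y)) (g (rayPt t y))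
          (uIcc 0 x) t := fun t _ => by
        have h1 : HasDerivAt (fun t : ℝ => rayPt t y) 1 t := by
          exact ((Complex.ofRealCLM.hasDerivAt (x := t)).add_const ((y : ℂ) * I)).congr_deriv
            (by simp)
        simpa using! ((hG (rayPt t y) (by rw [im_rayPt]; linarith)).comp t h1).hasDerivWithinAt
      have := (convex_uIcc 0 x).norm_image_sub_le_of_norm_hasDerivWithin_le hh
        (C := C * Real.exp (-(π / 2) * y)) (fun t ht => ?_) left_mem_uIcc right_mem_uIcc
      · simpa [Real.norm_eq_abs] using this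
      · have := hC (rayPt t y) (by rwa [im_rayPt]) (by
          rw [re_rayPt]
          exact (by simpa using abs_sub_left_of_mem_uIcc ht : |t| ≤ |x|).trans hx)
        rwa [im_rayPt] at this
    · simpa [neg_mul] using (((Real.tendsto_exp_atBot.comp
        (tendsto_id.const_mul_atTop_of_neg (show -(π / 2) < 0 by linarith [Real.pi_pos]))).const_mul
          C).mul_const |x|)
  simpa using hsmall.add hL

/-- The exponential. -/
def expU (u : ℝ) (z : ℂ) : ℂ := cexp (π * I * z * u)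

/-- `2 cos π u - 2`. -/
def circE (u : ℝ) : ℂ := cexp (π * I * u) + cexp (-(π * I * u)) - 2

/-- The dual kernel. -/
def dualKernel (Ψ : ℂ → ℂ) (w : ℂ) : ℂ := Ψ (-1 / w) * w ^ 2

/-- The part that grows. -/
def mainTerm (α β γ : ℂ) (z : ℂ) : ℂ := α * cexp (-(2 * π * I * z)) + β * z + γ

/-- The expansion of the dual kernel. -/
structure HasExpansion (ε : ℂ) (Ψ : ℂ → ℂ) (α β γ : ℂ) : Prop where
  second : ∀ z : ℂ, 0 < z.im →
    dualKernel Ψ (z + 1) + dualKernel Ψ (z - 1) - 2 * dualKernel Ψ z = 2 * ε * Ψ z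
  rest : ∃ C, ∀ z : ℂ, 1 ≤ z.im → |z.re| ≤ 1 →
    ‖dualKernel Ψ z - mainTerm α β γ z‖ ≤ C * Real.exp (-(π / 2) * z.im)

/-- The remainder integral. -/
def restInt (Ψ : ℂ → ℂ) (α β γ : ℂ) (u : ℝ) : ℂ :=
  ∫ y in Ioi (1 : ℝ), (dualKernel Ψ (rayPt 0 y) - mainTerm α β γ (rayPt 0 y)) *
    expU u (rayPt 0 y) * I

/-- The elementary term of a primitive. -/
def endTerm (Q : ℂ → ℂ) (u : ℝ) : ℂ :=
  cexp (-(π * I * u)) * Q (1 + I) + cexp (π * I * u) * Q (-1 + I) - (circE u + 2) * Q I

theorem neg_one_div_im {z : ℂ} (hz : 0 < z.im) : 0 < (-1 / z).im := by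
  have hn : 0 < Complex.normSq z := Complex.normSq_pos.2 fun e => by simp [e] at hz
  simpa [Complex.div_im, neg_div] using div_pos hz hn

theorem expU_norm_le {u : ℝ} (hu : 0 ≤ u) {z : ℂ} (hz : 0 ≤ z.im) : ‖expU u z‖ ≤ 1 := by
  rw [expU, norm_gauss_cexp]
  exact Real.exp_le_one_iff.2 (neg_nonpos.2 (mul_nonneg (mul_nonneg Real.pi_pos.le hz) hu))

theorem expU_add (u : ℝ) (z : ℂ) :
    expU u (z + 1) = cexp (π * I * u) * expU u z ∧
      expU u (z - 1) = cexp (-(π * I * u)) * expU u z := by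
  constructor <;> rw [expU, expU, ← Complex.exp_add] <;> ring_nf

variable {ε α β γ : ℂ} {Ψ : ℂ → ℂ}

theorem differentiableAt_dualKernel (h : IsMagic ε Ψ) {z : ℂ} (hz : 0 < z.im) :
    DifferentiableAt ℂ (dualKernel Ψ) z :=
  ((h.diff _ (neg_one_div_im hz)).comp z ((differentiableAt_const _).div differentiableAt_id
    (fun e : z = 0 => by simp [e] at hz))).mul (differentiableAt_id.pow 2)

/-- **The closed formula.** -/
theorem magicPart_eq (hm : IsMagic ε Ψ) (he : HasExpansion ε Ψ α β γ) {u : ℝ} (hu : 0 ≤ u)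
    {Q : ℂ → ℂ} (hQ : ∀ z, HasDerivAt Q (mainTerm α β γ z * expU u z) z) :
    magicPart ε Ψ u = circE u *
      (restInt Ψ α β γ u - raySum 1 (rayWeight Ψ 0) (fun y => -1 / rayPt 0 y) u) +
        endTerm Q u := by
  have hexp : Differentiable ℂ (expU u) := by unfold expU; fun_prop
  obtain ⟨G, hG⟩ := exists_primitive (f := fun z => dualKernel Ψ z * expU u z)
    fun z hz => (differentiableAt_dualKernel hm hz).mul (hexp z)
  -- the inverted rays
  set g₁ : ℂ → ℂ := fun W => Ψ W / W ^ 4 * cexp (π * I * (-1 / W) * u) with hg₁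
  have hd₁ : ∀ W : ℂ, 0 < W.im → HasDerivAt (fun W => G (-1 / W)) (g₁ W) W := fun W hW => by
    have h0 : W ≠ 0 := fun e => by simp [e] at hW
    refine ((hG _ (neg_one_div_im hW)).comp W
      ((hasDerivAt_const W (-1 : ℂ)).div (hasDerivAt_id W) h0)).congr_deriv ?_
    simp only [hg₁, dualKernel, expU]
    rw [show -1 / (-1 / W) = W by field_simp]
    field_simp
    ring
  obtain ⟨C, hC⟩ := hm.small
  obtain ⟨L, hL⟩ := exists_ray_value hd₁ (C := |C|) (fun W hW => by
    have h0 : W ≠ 0 := fun e => by simp [e] at hW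
    exact ((hm.diff W hW).div (differentiableAt_id.pow 4) (pow_ne_zero _ h0)).mul
      (Complex.differentiable_exp.differentiableAt.comp W (by fun_prop (disch := exact h0))))
    fun W hW _ => by
      simp only [hg₁, norm_mul, norm_div, norm_pow, norm_gauss_cexp]
      have h1 : 1 ≤ ‖W‖ := hW.trans ((le_abs_self _).trans (abs_im_le_norm W))
      have h2 : Real.exp (-(π * (-1 / W).im * u)) ≤ 1 := Real.exp_le_one_iff.2 (neg_nonpos.2
        (mul_nonneg (mul_nonneg Real.pi_pos.le (neg_one_div_im (by linarith)).le) hu))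
      refine (mul_le_of_le_one_right (by positivity) h2).trans ?_
      refine (div_le_self (norm_nonneg _) (one_le_pow₀ h1)).trans ((hC W (by linarith)).trans ?_)
      exact mul_le_mul (le_abs_self C) (Real.exp_le_exp.2 (by nlinarith [Real.pi_pos]))
        (Real.exp_pos _).le (abs_nonneg C)
  have hV : ∀ x y₀ : ℝ, |x| ≤ 1 → 0 < y₀ →
      raySum y₀ (rayWeight Ψ x) (fun y => -1 / rayPt x y) u = L - G (-1 / rayPt x y₀) :=
    fun x y₀ hx hy => by
    rw [← (hL x y₀ hx hy).2, raySum]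
    refine setIntegral_congr_fun measurableSet_Ioi fun y _ => ?_
    simp only [hg₁, rayWeight]; ring
  have hshift : ∀ k x : ℝ, raySum (1 / 2) (rayWeight Ψ x) (fun y => (k : ℂ) + -1 / rayPt x y) u =
      cexp (π * I * k * u) * raySum (1 / 2) (rayWeight Ψ x) (fun y => -1 / rayPt x y) u :=
    fun k x => by
    rw [raySum, raySum, ← integral_const_mul]
    refine setIntegral_congr_fun measurableSet_Ioi fun y _ => ?_
    simp only [mul_add, add_mul, Complex.exp_add]; ring
  have p1 : -1 / rayPt (-1 / 2) (1 / 2) = 1 + I := by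
    rw [div_eq_iff (rayPt_ne_zero (by norm_num)), rayPt]
    push_cast; linear_combination (-1 / 2 : ℂ) * I_sq
  have p2 : -1 / rayPt (1 / 2) (1 / 2) = -1 + I := by
    rw [div_eq_iff (rayPt_ne_zero (by norm_num)), rayPt]
    push_cast; linear_combination (-1 / 2 : ℂ) * I_sq
  have p3 : -1 / rayPt 0 1 = I := by simp [rayPt]
  have v1 : raySum (1 / 2) (rayWeight Ψ (-1 / 2)) (fun y => -1 + -1 / rayPt (-1 / 2) y) u =
      cexp (-(π * I * u)) * (L - G (1 + I)) := by
    have h := hshift (-1) (-1 / 2)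
    rw [hV _ _ (by norm_num [abs_le]) (by norm_num), p1] at h
    simpa [neg_mul, mul_neg] using h
  have v2 : raySum (1 / 2) (rayWeight Ψ (1 / 2)) (fun y => 1 + -1 / rayPt (1 / 2) y) u =
      cexp (π * I * u) * (L - G (-1 + I)) := by
    have h := hshift 1 (1 / 2)
    rw [hV _ _ (by norm_num [abs_le]) (by norm_num), p2] at h
    simpa using h
  have v3 : raySum 1 (rayWeight Ψ 0) (fun y => -1 / rayPt 0 y) u = L - G I := by
    rw [hV _ _ (by norm_num) one_pos, p3]
  -- the remainder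
  set g₂ : ℂ → ℂ := fun z => (dualKernel Ψ z - mainTerm α β γ z) * expU u z with hg₂
  have hd₂ : ∀ z : ℂ, 0 < z.im → HasDerivAt (fun z => G z - Q z) (g₂ z) z := fun z hz =>
    ((hG z hz).sub (hQ z)).congr_deriv (by simp only [hg₂]; ring)
  obtain ⟨D, hD⟩ := he.rest
  obtain ⟨L₂, hL₂⟩ := exists_ray_value hd₂ (C := |D|) (fun z hz =>
    ((differentiableAt_dualKernel hm hz).sub
      (show DifferentiableAt ℂ (mainTerm α β γ) z by unfold mainTerm; fun_prop)).mul (hexp z))
    fun z hz hr => by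
      simp only [hg₂, norm_mul]
      refine (mul_le_of_le_one_right (norm_nonneg _) (expU_norm_le hu (by linarith))).trans
        ((hD z hz hr).trans ?_)
      exact mul_le_mul_of_nonneg_right (le_abs_self D) (Real.exp_pos _).le
  have hJ := fun x : ℝ => fun hx : |x| ≤ 1 => hL₂ x 1 hx one_pos
  set J : ℝ → ℂ := fun x => ∫ y in Ioi (1 : ℝ), g₂ (rayPt x y) * I with hJdef
  have r0 : restInt Ψ α β γ u = J 0 := rfl
  have q1 : rayPt 1 1 = 1 + I := by simp [rayPt]
  have q2 : rayPt (-1) 1 = -1 + I := by simp [rayPt]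
  have q3 : rayPt 0 1 = I := by simp [rayPt]
  have j0 : J 0 = L₂ - (G I - Q I) := q3 ▸ (hJ 0 (by norm_num)).2
  have j1 : J 1 = L₂ - (G (1 + I) - Q (1 + I)) := q1 ▸ (hJ 1 (by norm_num)).2
  have j2 : J (-1) = L₂ - (G (-1 + I) - Q (-1 + I)) := q2 ▸ (hJ (-1) (by norm_num)).2
  have hsum : cexp (-(π * I * u)) * J 1 + cexp (π * I * u) * J (-1) = 2 * J 0 +
      2 * ε * raySum 1 (fun y => Ψ (rayPt 0 y) * I) (rayPt 0) u := by
    simp only [hJdef, raySum, ← integral_const_mul]
    rw [← integral_add ((hJ 1 (by norm_num)).1.const_mul _)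
        ((hJ (-1) (by norm_num)).1.const_mul _),
      ← integral_add ((hJ 0 (by norm_num)).1.const_mul _)
        ((hm.isRay_line.integrable hu).const_mul _)]
    refine setIntegral_congr_fun measurableSet_Ioi fun y hy => ?_
    have hy0 : 0 < (rayPt 0 y).im := by rw [im_rayPt]; exact lt_trans one_pos hy
    have s1 : rayPt 1 y = rayPt 0 y + 1 := by simp [rayPt]; ring
    have s2 : rayPt (-1) y = rayPt 0 y - 1 := by simp [rayPt]; ring
    have hp : mainTerm α β γ (rayPt 0 y + 1) + mainTerm α β γ (rayPt 0 y - 1) =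
        2 * mainTerm α β γ (rayPt 0 y) := by
      simp only [mainTerm, mul_add, mul_sub, mul_one, neg_add, neg_sub, Complex.exp_add,
        Complex.exp_sub, Complex.exp_neg, Complex.exp_two_pi_mul_I]
      ring
    simp only [hg₂, s1, s2, (expU_add u _).1, (expU_add u _).2,
      show cexp (π * I * (rayPt 0 y) * u) = expU u (rayPt 0 y) from rfl]
    have he' : cexp (π * I * u) * cexp (-(π * I * u)) = 1 := by
      rw [← Complex.exp_add, add_neg_cancel, Complex.exp_zero]
    set P := dualKernel Ψ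
    set E := expU u (rayPt 0 y)
    linear_combination (E * I) * (he.second _ hy0) - (E * I) * hp +
      (E * I * (P (rayPt 0 y + 1) - mainTerm α β γ (rayPt 0 y + 1) + P (rayPt 0 y - 1) -
        mainTerm α β γ (rayPt 0 y - 1))) * he'
  rw [magicPart, v1, v2, v3, r0, endTerm, circE]
  linear_combination (-(cexp (π * I * u) + cexp (-(π * I * u)))) * j0 +
    cexp (-(π * I * u)) * j1 + cexp (π * I * u) * j2 - hsum

end FA.Viazovska

end
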