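import Fermat.Agent.Viazovska.Axis
import Mathlib.Analysis.SpecialFunctions.Pow.Deriv
import Mathlib.Analysis.Calculus.Deriv.MeanValue

/-!
# The inequality of Viazovska, by Lee's argument

With `F = (E₂ E₄ - E₆)²`, `G = a³ (2 a² + 5 a c + 5 c²)` and `L = D F · G - F · D G` one has
`D L - (11/6) E₂ L = Δ (7200 (-D E₂) G + 640 a F) > 0`, so `L / Δ^(11/6)` decreases along the axis;
it is positive near `∞`, hence `L > 0`, so `F / G` decreases from its limit `18 / π²` at `0`.
-/

set_option autoImplicit false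

noncomputable section

open UpperHalfPlane hiding I
open Complex Filter FA.Eis FA.Tau Set
open scoped Real Topology MatrixGroups

namespace FA.Viazovska

local notation "aR" => axTwo
local notation "cR" => axFour
local notation "eR" => axEis

/-- `E₂ E₄ - E₆`. -/
def uR (s : ℝ) : ℝ := eR s * quadR (aR s) (cR s) - cubeR (aR s) (cR s)

/-- `D (E₂ E₄ - E₆)`. -/
def uDerR (s : ℝ) : ℝ :=
  5 / 12 * (eR s ^ 2 * quadR (aR s) (cR s) - 2 * (eR s * cubeR (aR s) (cR s)) +
    quadR (aR s) (cR s) ^ 2)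

/-- The form of weight ten. -/
def gR (s : ℝ) : ℝ := aR s ^ 3 * (2 * aR s ^ 2 + 5 * aR s * cR s + 5 * cR s ^ 2)

/-- Its derivative. -/
def gDerR (s : ℝ) : ℝ :=
  aR s ^ 3 * ((eR s + aR s + 2 * cR s) * (10 * aR s ^ 2 + 20 * aR s * cR s + 15 * cR s ^ 2) +
    cR s * (eR s - 2 * aR s - cR s) * (5 * aR s + 10 * cR s)) / 6

/-- The discriminant. -/
def discR (s : ℝ) : ℝ := (aR s * cR s * (aR s + cR s)) ^ 2 / 256

/-- The Wronskian of `F` and `G`. -/
def wronR (s : ℝ) : ℝ := 2 * uR s * uDerR s * gR s - uR s ^ 2 * gDerR s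

variable {s : ℝ}

theorem gR_pos (hs : 0 < s) : 0 < gR s := by
  obtain ⟨-, -, -, ha, hc⟩ := axis_real hs
  unfold gR; positivity

theorem discR_pos (hs : 0 < s) : 0 < discR s := by
  obtain ⟨-, -, -, ha, hc⟩ := axis_real hs
  unfold discR; positivity

theorem hasDerivAt_uR (hs : 0 < s) : HasDerivAt uR (-(2 * π) * uDerR s) s := by
  obtain ⟨da, dc, de⟩ := hasDerivAt_axis hs
  refine ((de.mul (((da.pow 2).add (da.mul dc)).add (dc.pow 2))).sub
    ((((da.add (dc.const_mul 2)).mul ((da.const_mul 2).add dc)).mul (dc.sub da)).div_const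
      2)).congr_deriv ?_
  simp only [uDerR, quadR, cubeR, Pi.add_apply, Pi.mul_apply, Pi.sub_apply, Pi.pow_apply,
    Nat.cast_ofNat, Nat.add_one_sub_one, pow_one]
  ring

theorem hasDerivAt_gR (hs : 0 < s) : HasDerivAt gR (-(2 * π) * gDerR s) s := by
  obtain ⟨da, dc, -⟩ := hasDerivAt_axis hs
  refine ((da.pow 3).mul ((((da.pow 2).const_mul 2).add ((da.const_mul 5).mul dc)).add
    ((dc.pow 2).const_mul 5))).congr_deriv ?_
  simp only [gDerR, Pi.add_apply, Pi.mul_apply, Pi.pow_apply, Nat.cast_ofNat, Nat.add_one_sub_one,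
    pow_one]
  ring

theorem hasDerivAt_discR (hs : 0 < s) : HasDerivAt discR (-(2 * π) * (eR s * discR s)) s := by
  obtain ⟨da, dc, -⟩ := hasDerivAt_axis hs
  refine ((((da.mul dc).mul (da.add dc)).pow 2).div_const 256).congr_deriv ?_
  simp only [discR, Pi.add_apply, Pi.mul_apply, Nat.cast_ofNat, Nat.add_one_sub_one, pow_one]
  ring

/-- Lee's differential equation. -/
theorem hasDerivAt_wronR (hs : 0 < s) : HasDerivAt wronR
    (-(2 * π) * (11 / 6 * (eR s * wronR s) + discR s *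
      (600 * (quadR (aR s) (cR s) - eR s ^ 2) * gR s + 640 * aR s * uR s ^ 2))) s := by
  obtain ⟨da, dc, de⟩ := hasDerivAt_axis hs
  have du := hasDerivAt_uR hs
  have dg := hasDerivAt_gR hs
  have dP := ((da.pow 2).add (da.mul dc)).add (dc.pow 2)
  have dC := (((da.add (dc.const_mul 2)).mul ((da.const_mul 2).add dc)).mul (dc.sub da)).div_const 2
  have ddu := ((((de.pow 2).mul dP).sub ((de.mul dC).const_mul 2)).add (dP.pow 2)).const_mul
    (5 / 12 : ℝ)
  have dp := (((de.add da).add (dc.const_mul 2)).mul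
    ((((da.pow 2).const_mul 10).add ((da.const_mul 20).mul dc)).add ((dc.pow 2).const_mul 15))).add
    ((dc.mul ((de.sub (da.const_mul 2)).sub dc)).mul ((da.const_mul 5).add (dc.const_mul 10)))
  have ddg := ((da.pow 3).mul dp).div_const 6
  refine ((((du.const_mul 2).mul ddu).mul dg).sub ((du.pow 2).mul ddg)).congr_deriv ?_
  simp only [wronR, uR, uDerR, gR, gDerR, discR, quadR, cubeR, Pi.add_apply, Pi.mul_apply,
    Pi.sub_apply, Pi.pow_apply, Nat.cast_ofNat, Nat.add_one_sub_one, pow_one]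
  ring

/-! ### Near `∞` -/

/-- The nome on the axis. -/
def axNome (s : ℝ) : ℝ := Real.exp (-(π * s))

theorem axNome_sq (s : ℝ) : axNome s ^ 2 = Real.exp (-(2 * π * s)) := by
  rw [axNome, ← Real.exp_nat_mul]; ring_nf

theorem nome_axis (s : ℝ) : nome ((s : ℂ) * I) = (axNome s : ℂ) := by
  rw [nome, axNome, ofReal_exp]
  congr 1
  push_cast
  linear_combination (π * s) * I_mul_I

theorem re_eisTwo_axis (hs : 0 < s) :
    EisensteinSeries.E2 (ofComplex ((s : ℂ) * I)) = (eR s : ℂ) ∧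
      ModularForm.E₄ (ofComplex ((s : ℂ) * I)) = (quadR (aR s) (cR s) : ℂ) ∧
      ModularForm.E₆ (ofComplex ((s : ℂ) * I)) = (cubeR (aR s) (cR s) : ℂ) := by
  obtain ⟨ea, ec, ee, -, -⟩ := axis_real hs
  refine ⟨ee, ?_, ?_⟩
  · rw [eFour_eq, ofComplex_apply_of_im_pos (im_axis hs)]
    simp [quadPoly, quadR, ea, ec]
  · rw [eSix_eq, ofComplex_apply_of_im_pos (im_axis hs)]
    simp [cubePoly, cubeR, ea, ec]

theorem tendsto_forms :
    Tendsto eR atTop (𝓝 1) ∧ Tendsto aR atTop (𝓝 0) ∧ Tendsto cR atTop (𝓝 1) ∧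
      Tendsto (fun s => aR s / axNome s) atTop (𝓝 16) := by
  have hray : Tendsto (fun s : ℝ => ofComplex ((s : ℂ) * I)) atTop atImInfty := by
    rw [atImInfty, tendsto_comap_iff]
    refine tendsto_id.congr' ((eventually_gt_atTop (0 : ℝ)).mono fun s hs => ?_)
    simp [ofComplex_apply_of_im_pos (im_axis hs), UpperHalfPlane.im]
  have hre : ∀ {f : ℝ → ℂ} {g : ℝ → ℝ} {l : ℂ}, Tendsto f atTop (𝓝 l) →
      (∀ s, 0 < s → f s = (g s : ℂ)) → Tendsto g atTop (𝓝 l.re) := fun {f g l} h he =>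
    ((Complex.continuous_re.tendsto _).comp h).congr' ((eventually_gt_atTop (0 : ℝ)).mono
      fun s hs => by simp [he s hs])
  refine ⟨?_, ?_, ?_, ?_⟩
  · have h := hre ((hasQ_eTwo.tendsto one_pos).comp hray) fun s hs => (re_eisTwo_axis hs).1
    simpa [eTwoInt] using h
  · have h := hre (g := aR) ((tendsto_thetaFourth.1).comp hray) fun s hs => ?_
    · simpa using h
    · simp [ofComplex_apply_of_im_pos (im_axis hs), (axis_real hs).1]
  · have h := hre (g := cR) ((tendsto_thetaFourth.2).comp hray) fun s hs => ?_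
    · simpa using h
    · simp [ofComplex_apply_of_im_pos (im_axis hs), (axis_real hs).2.1]
  · have hlo := (Asymptotics.isLittleO_pow_id (𝕜 := ℂ) (show 1 < 5 by norm_num)).comp_tendsto
      tendsto_nome
    have h1 := (cong_two.trans_isLittleO hlo).tendsto_div_nhds_zero
    have h2 : Tendsto (fun z => thetaFourthTwo z / nome z) imTop (𝓝 16) := by
      have h3 := h1.add (((tendsto_nome.pow 2).const_mul 4).const_add 1 |>.const_mul 16)
      simp only [ne_eq, OfNat.ofNat_ne_zero, not_false_eq_true, zero_pow, mul_zero, add_zero,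
        mul_one, zero_add] at h3
      refine h3.congr fun z => ?_
      have := nome_ne_zero z
      simp only [Function.comp_apply]
      field_simp
      ring
    have h := hre (h2.comp tendsto_axis) (g := fun s => aR s / axNome s) fun s hs => by
      simp [(axis_real hs).1, nome_axis]
    simpa using h

theorem tendsto_uR :
    Tendsto (fun s => uR s / axNome s ^ 2) atTop (𝓝 720) ∧
      Tendsto (fun s => uDerR s / axNome s ^ 2) atTop (𝓝 720) := by
  have c1 : ∀ {A B : PowerSeries ℤ}, PowerSeries.coeff 1 (A * B) =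
      PowerSeries.coeff 0 A * PowerSeries.coeff 1 B +
        PowerSeries.coeff 1 A * PowerSeries.coeff 0 B := fun {A B} => by
    simp [PowerSeries.coeff_mul, Finset.Nat.antidiagonal_succ]
  have c0 : ∀ {A B : PowerSeries ℤ}, PowerSeries.coeff 0 (A * B) =
      PowerSeries.coeff 0 A * PowerSeries.coeff 0 B := fun {A B} => by
    simp [PowerSeries.coeff_mul]
  have h2 : PowerSeries.coeff 0 eTwoInt = 1 ∧ PowerSeries.coeff 1 eTwoInt = -24 := by
    simp [eTwoInt]
  have h4 : PowerSeries.coeff 0 eFourInt = 1 ∧ PowerSeries.coeff 1 eFourInt = 240 := by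
    simp [eFourInt]
  have h6 : PowerSeries.coeff 0 eSixInt = 1 ∧ PowerSeries.coeff 1 eSixInt = -504 := by
    simp [eSixInt]
  refine ⟨?_, ?_⟩
  · have hQ : HasQ 1 (EisensteinSeries.E2 * ⇑ModularForm.E₄ - ⇑ModularForm.E₆)
        ((eTwoInt * eFourInt - eSixInt).map (Int.castRingHom ℂ)) := by
      rw [map_sub, map_mul]
      exact (hasQ_eTwo.mul one_pos hasQ_eFour).sub hasQ_eSix
    have h := tendsto_div_qParam hQ (by rw [map_sub, c0, h2.1, h4.1, h6.1]; norm_num)
    rw [map_sub, c1, h2.1, h2.2, h4.1, h4.2, h6.2] at h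
    norm_num at h
    refine h.congr' ((eventually_gt_atTop (0 : ℝ)).mono fun s hs => ?_)
    obtain ⟨e2, e4, e6⟩ := re_eisTwo_axis hs
    simp [axNome_sq, uR, e2, e4, e6]
  · have hQ : HasQ 1 (EisensteinSeries.E2 * EisensteinSeries.E2 * ⇑ModularForm.E₄ -
        (EisensteinSeries.E2 * ⇑ModularForm.E₆ + EisensteinSeries.E2 * ⇑ModularForm.E₆) +
        ⇑ModularForm.E₄ * ⇑ModularForm.E₄)
        ((eTwoInt * eTwoInt * eFourInt - (eTwoInt * eSixInt + eTwoInt * eSixInt) +
          eFourInt * eFourInt).map (Int.castRingHom ℂ)) := by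
      simp only [map_add, map_sub, map_mul]
      exact (((hasQ_eTwo.mul one_pos hasQ_eTwo).mul one_pos hasQ_eFour).sub
        ((hasQ_eTwo.mul one_pos hasQ_eSix).add (hasQ_eTwo.mul one_pos hasQ_eSix))).add
          (hasQ_eFour.mul one_pos hasQ_eFour)
    have h := tendsto_div_qParam hQ (by
      simp only [map_add, map_sub, c0, h2.1, h4.1, h6.1]; norm_num)
    simp only [map_add, map_sub, c1, c0, h2.1, h2.2, h4.1, h4.2, h6.1, h6.2] at h
    norm_num at h
    have h' := h.const_mul (5 / 12 : ℝ)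
    norm_num at h'
    refine h'.congr' ((eventually_gt_atTop (0 : ℝ)).mono fun s hs => ?_)
    obtain ⟨e2, e4, e6⟩ := re_eisTwo_axis hs
    simp only [e2, e4, e6, ofReal_re, ofReal_im, mul_zero, zero_mul, sub_zero, axNome_sq, uDerR]
    ring

theorem eventually_wronR_pos : ∀ᶠ s in atTop, 0 < wronR s := by
  obtain ⟨he, ha, hc, hq⟩ := tendsto_forms
  obtain ⟨hu, hd⟩ := tendsto_uR
  have h1 := (hq.pow 3).mul ((((ha.pow 2).const_mul 2).add ((ha.const_mul 5).mul hc)).add
    ((hc.pow 2).const_mul 5))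
  have h2 := ((hq.pow 3).mul ((((he.add ha).add (hc.const_mul 2)).mul
    ((((ha.pow 2).const_mul 10).add ((ha.const_mul 20).mul hc)).add ((hc.pow 2).const_mul 15))).add
      ((hc.mul ((he.sub (ha.const_mul 2)).sub hc)).mul
        ((ha.const_mul 5).add (hc.const_mul 10))))).div_const 6
  have h := (((hu.const_mul 2).mul hd).mul h1).sub ((hu.pow 2).mul h2)
  norm_num at h
  filter_upwards [h.eventually (lt_mem_nhds (show (0 : ℝ) < 5308416000 by norm_num)),
    eventually_gt_atTop (0 : ℝ)] with s hs hs0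
  have hv : 0 < axNome s := Real.exp_pos _
  have e : wronR s / axNome s ^ 7 =
      2 * (uR s / axNome s ^ 2) * (uDerR s / axNome s ^ 2) * ((aR s / axNome s) ^ 3 *
          (2 * aR s ^ 2 + 5 * aR s * cR s + 5 * cR s ^ 2)) -
        (uR s / axNome s ^ 2) ^ 2 * ((aR s / axNome s) ^ 3 *
          ((eR s + aR s + 2 * cR s) * (10 * aR s ^ 2 + 20 * aR s * cR s + 15 * cR s ^ 2) +
            cR s * (eR s - 2 * aR s - cR s) * (5 * aR s + 10 * cR s)) / 6) := by
    rw [wronR, gR, gDerR]; field_simp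
  rw [← e] at hs
  exact (div_pos_iff_of_pos_right (pow_pos hv 7)).1 hs

theorem wronR_pos (hs : 0 < s) : 0 < wronR s := by
  set R : ℝ → ℝ := fun t => wronR t * discR t ^ (-(11 / 6 : ℝ)) with hR
  have hd : ∀ t, 0 < t → HasDerivAt R (-(2 * π) * (discR t *
      (600 * (quadR (aR t) (cR t) - eR t ^ 2) * gR t + 640 * aR t * uR t ^ 2)) *
        discR t ^ (-(11 / 6 : ℝ))) t := fun t ht => by
    refine ((hasDerivAt_wronR ht).mul ((hasDerivAt_discR ht).rpow_const
      (p := -(11 / 6 : ℝ)) (Or.inl (discR_pos ht).ne'))).congr_deriv ?_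
    rw [Real.rpow_sub_one (discR_pos ht).ne']
    field_simp [(discR_pos ht).ne']
    ring
  have hanti : StrictAntiOn R (Ioi 0) := by
    refine strictAntiOn_of_deriv_neg (convex_Ioi 0)
      (fun t ht => (hd t ht).continuousAt.continuousWithinAt) fun t ht => ?_
    rw [interior_Ioi] at ht
    rw [(hd t ht).deriv]
    obtain ⟨-, -, -, ha, hc⟩ := axis_real (show 0 < t from ht)
    have hpos : 0 < 600 * (quadR (aR t) (cR t) - eR t ^ 2) * gR t + 640 * aR t * uR t ^ 2 :=
      lt_add_of_pos_of_le (mul_pos (mul_pos (by norm_num) (sub_pos.2 (eisTwo_deriv_neg ht)))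
        (gR_pos ht)) (mul_nonneg (mul_nonneg (by norm_num) ha.le) (sq_nonneg _))
    exact mul_neg_of_neg_of_pos (mul_neg_of_neg_of_pos (by linarith [Real.pi_pos])
      (mul_pos (discR_pos ht) hpos)) (Real.rpow_pos_of_pos (discR_pos ht) _)
  obtain ⟨t, htL, hts⟩ := (eventually_wronR_pos.and (eventually_gt_atTop s)).exists
  have hlt := hanti (mem_Ioi.2 hs) (mem_Ioi.2 (hs.trans hts)) hts
  have hRt : 0 < R t := mul_pos htL (Real.rpow_pos_of_pos (discR_pos (hs.trans hts)) _)
  exact pos_of_mul_pos_left (hRt.trans hlt) (Real.rpow_pos_of_pos (discR_pos hs) _).le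

/-! ### Near `0` -/

theorem axis_inv (hs : 0 < s) : aR s⁻¹ = s ^ 2 * cR s ∧ cR s⁻¹ = s ^ 2 * aR s ∧
    eR s⁻¹ = -(s ^ 2 * eR s) + 6 * s / π := by
  obtain ⟨ea, ec, ee, -, -⟩ := axis_real hs
  have hinv : ((s⁻¹ : ℝ) : ℂ) * I = -1 / ((s : ℂ) * I) := by
    have : (s : ℂ) ≠ 0 := ofReal_ne_zero.2 hs.ne'
    push_cast; field_simp; linear_combination I_mul_I
  obtain ⟨i1, i2⟩ := thetaFourth_inversion (im_axis hs)
  refine ⟨?_, ?_, ?_⟩
  · rw [axTwo, hinv, i1, ec, show -(((s : ℂ) * I) ^ 2 * (cR s : ℂ)) = ((s ^ 2 * cR s : ℝ) : ℂ) by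
      push_cast; linear_combination -((s : ℂ) ^ 2 * cR s) * I_mul_I, ofReal_re]
  · rw [axFour, hinv, i2, ea, show -(((s : ℂ) * I) ^ 2 * (aR s : ℂ)) = ((s ^ 2 * aR s : ℝ) : ℂ) by
      push_cast; linear_combination -((s : ℂ) ^ 2 * aR s) * I_mul_I, ofReal_re]
  · set z : ℍ := ⟨(s : ℂ) * I, im_axis hs⟩
    have hz : (z : ℂ) ≠ 0 := UpperHalfPlane.ne_zero z
    have h := congrFun (EisensteinSeries.E2_slash_action ModularGroup.S) z
    rw [ModularForm.SL_slash_apply, ModularGroup.denom_S, Pi.sub_apply, Pi.smul_apply,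
      EisensteinSeries.D2_S, riemannZeta_two, smul_eq_mul, zpow_neg, zpow_two] at h
    have hS : ofComplex (((s⁻¹ : ℝ) : ℂ) * I) = ModularGroup.S • z := by
      apply UpperHalfPlane.ext
      rw [ofComplex_apply_of_im_pos (im_axis (inv_pos.2 hs)), UpperHalfPlane.modular_S_smul]
      show ((s⁻¹ : ℝ) : ℂ) * I = (-(z : ℂ))⁻¹
      rw [hinv, inv_neg, neg_div, one_div]
    have hz2 : eisTwo ((s : ℂ) * I) = EisensteinSeries.E2 z := by
      rw [eisTwo, ofComplex_apply_of_im_pos (im_axis hs)]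
    rw [← hz2, ee] at h
    have hv : EisensteinSeries.E2 (ModularGroup.S • z) =
        ((-(s ^ 2 * eR s) + 6 * s / π : ℝ) : ℂ) := by
      have hzv : (z : ℂ) = (s : ℂ) * I := rfl
      rw [hzv] at h
      have hπ : (π : ℂ) ≠ 0 := ofReal_ne_zero.2 Real.pi_ne_zero
      have hs' : (s : ℂ) ≠ 0 := ofReal_ne_zero.2 hs.ne'
      push_cast
      field_simp at h ⊢
      ring_nf at h ⊢
      simp only [I_sq] at h ⊢
      linear_combination h
    rw [axEis, eisTwo, hS, hv, ofReal_re]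

theorem tendsto_quot_zero :
    Tendsto (fun s => uR s ^ 2 / gR s) (𝓝[>] 0) (𝓝 (18 / π ^ 2)) := by
  obtain ⟨he, ha, hc, -⟩ := tendsto_forms
  have hexp : Tendsto (fun s : ℝ => s * axNome s ^ 2) atTop (𝓝 0) := by
    have h := ((Real.tendsto_pow_mul_exp_neg_atTop_nhds_zero 1).comp
      (tendsto_id.const_mul_atTop Real.two_pi_pos)).const_mul (2 * π)⁻¹
    rw [mul_zero] at h
    refine h.congr fun s => ?_
    simp only [Function.comp_apply, id, pow_one, axNome_sq]
    field_simp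
  have hsu : Tendsto (fun s => s * uR s) atTop (𝓝 0) := by
    have h := hexp.mul tendsto_uR.1
    rw [zero_mul] at h
    refine h.congr fun s => ?_
    have : axNome s ≠ 0 := (Real.exp_pos _).ne'
    field_simp
  have hP : Tendsto (fun s => quadR (aR s) (cR s)) atTop (𝓝 1) := by
    simpa [quadR] using ((ha.pow 2).add (ha.mul hc)).add (hc.pow 2)
  have hden : Tendsto (fun s => cR s ^ 3 * (2 * cR s ^ 2 + 5 * aR s * cR s + 5 * aR s ^ 2)) atTop
      (𝓝 2) := by
    simpa using (hc.pow 3).mul ((((hc.pow 2).const_mul 2).add ((ha.const_mul 5).mul hc)).add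
      ((ha.pow 2).const_mul 5))
  have h := ((hsu.neg.add ((hP.const_mul 6).div_const π)).pow 2).div hden two_ne_zero
  rw [show ((-0 + 6 * 1 / π) ^ 2 / 2 : ℝ) = 18 / π ^ 2 by field_simp; ring] at h
  refine (h.comp tendsto_inv_nhdsGT_zero).congr' ?_
  filter_upwards [self_mem_nhdsWithin] with t ht
  have ht' : (0 : ℝ) < t⁻¹ := inv_pos.2 ht
  obtain ⟨j1, j2, j3⟩ := axis_inv ht'
  rw [inv_inv] at j1 j2 j3
  simp only [Function.comp_apply, Pi.div_apply, uR, gR, quadR, cubeR, j1, j2, j3]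
  have : t ≠ 0 := (show (0 : ℝ) < t from ht).ne'
  field_simp
  ring

/-- **Viazovska's inequality.** -/
theorem uR_sq_lt (hs : 0 < s) : uR s ^ 2 < 18 / π ^ 2 * gR s := by
  have hd : ∀ t, 0 < t → HasDerivAt (fun t => uR t ^ 2 / gR t)
      (-(2 * π) * wronR t / gR t ^ 2) t := fun t ht => by
    refine (((hasDerivAt_uR ht).pow 2).div (hasDerivAt_gR ht) (gR_pos ht).ne').congr_deriv ?_
    simp only [wronR, Nat.cast_ofNat, Nat.add_one_sub_one, pow_one, Pi.pow_apply]
    ring
  have hanti : StrictAntiOn (fun t => uR t ^ 2 / gR t) (Ioi 0) := by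
    refine strictAntiOn_of_deriv_neg (convex_Ioi 0)
      (fun t ht => (hd t ht).continuousAt.continuousWithinAt) fun t ht => ?_
    rw [interior_Ioi] at ht
    rw [(hd t ht).deriv]
    exact div_neg_of_neg_of_pos (mul_neg_of_neg_of_pos (by linarith [Real.pi_pos]) (wronR_pos ht))
      (pow_pos (gR_pos ht) 2)
  have h2 : uR (s / 2) ^ 2 / gR (s / 2) ≤ 18 / π ^ 2 := by
    refine ge_of_tendsto tendsto_quot_zero ?_
    filter_upwards [Ioo_mem_nhdsGT (half_pos hs)] with t ht
    exact (hanti (mem_Ioi.2 ht.1) (mem_Ioi.2 (half_pos hs)) ht.2).le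
  have h3 := hanti (mem_Ioi.2 (half_pos hs)) (mem_Ioi.2 hs) (half_lt_self hs)
  exact (div_lt_iff₀ (gR_pos hs)).1 (h3.trans_le h2)

end FA.Viazovska

end
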