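import Fermat.Agent.Viazovska.Kernels
import Fermat.Agent.Viazovska.Inequality
import Fermat.Agent.PackingLP.Bound

/-!
# Viazovska's magic function

`g = π i / 8640 · M₊ - i / (240 π) · M₋` is real, equals one at `0`, is nonpositive for `|x|² ≥ 2`,
and its Fourier transform `π i / 8640 · M₊ + i / (240 π) · M₋` is nonnegative and one at `0`.
-/

set_option autoImplicit false

noncomputable section

open Complex MeasureTheory Set Filter
open scoped Real Topology

namespace FA.Viazovska

local notation "hA" => thetaFourthTwo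
local notation "hC" => thetaFourthFour

variable {ε : ℂ} {Ψ : ℂ → ℂ}

/-- A primitive of the elementary part. -/
def primMain (α β γ : ℂ) (u : ℝ) (z : ℂ) : ℂ :=
  expU u z * (α * cexp (-(2 * π * I * z)) / (π * I * ((u : ℂ) - 2)) +
    β * (z / (π * I * u) - 1 / (π * I * u) ^ 2) + γ / (π * I * u))

theorem hasDerivAt_expU (u : ℝ) (z : ℂ) :
    HasDerivAt (expU u) (π * I * u * expU u z) z := by
  unfold expU
  refine ((((hasDerivAt_id z).const_mul (π * I : ℂ)).mul_const (u : ℂ)).cexp).congr_deriv ?_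
  simp; ring

theorem hasDerivAt_expTwo (z : ℂ) :
    HasDerivAt (fun z : ℂ => cexp (-(2 * π * I * z)))
      (-(2 * π * I) * cexp (-(2 * π * I * z))) z := by
  refine (((hasDerivAt_id z).const_mul (2 * π * I : ℂ)).neg.cexp).congr_deriv ?_
  simp; ring

theorem pi_I_ne_zero : (π : ℂ) * I ≠ 0 :=
  mul_ne_zero (ofReal_ne_zero.2 Real.pi_ne_zero) I_ne_zero

variable {α β γ : ℂ}

theorem magicPart_zero (hm : IsMagic ε Ψ) (he : HasExpansion ε Ψ α β γ) :
    magicPart ε Ψ 0 = β := by
  have hπ := pi_I_ne_zero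
  have hQ : ∀ z, HasDerivAt
      (fun z => α * cexp (-(2 * π * I * z)) / (-(2 * π * I)) + β * z ^ 2 / 2 + γ * z)
      (mainTerm α β γ z * expU 0 z) z := fun z => by
    refine ((((hasDerivAt_expTwo z).const_mul α).div_const _).add
      ((((hasDerivAt_id z).pow 2).const_mul β).div_const 2)).add
        ((hasDerivAt_id z).const_mul γ) |>.congr_deriv ?_
    simp only [mainTerm, expU, ofReal_zero, mul_zero, Complex.exp_zero, mul_one, id_eq,
      Nat.cast_ofNat, Nat.add_one_sub_one, pow_one]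
    field_simp
  rw [magicPart_eq hm he le_rfl hQ, endTerm, circE]
  simp only [ofReal_zero, mul_zero, neg_zero, Complex.exp_zero, mul_add, neg_add_rev,
    Complex.exp_add, mul_one, Complex.exp_neg, Complex.exp_two_pi_mul_I, mul_neg, neg_neg]
  simp only [inv_one, mul_one]
  ring

theorem magicPart_two (hm : IsMagic ε Ψ) (he : HasExpansion ε Ψ α β γ) :
    magicPart ε Ψ 2 = 0 := by
  have hπ := pi_I_ne_zero
  have he2 : ∀ z : ℂ, cexp (-(2 * π * I * z)) * expU 2 z = 1 := fun z => by
    rw [expU, ← Complex.exp_add, show -(2 * π * I * z) + π * I * z * ((2 : ℝ) : ℂ) = 0 by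
      push_cast; ring, Complex.exp_zero]
  have hQ : ∀ z, HasDerivAt
      (fun z => α * z + expU 2 z * (β * (z / (2 * π * I) - 1 / (2 * π * I) ^ 2) + γ / (2 * π * I)))
      (mainTerm α β γ z * expU 2 z) z := fun z => by
    refine ((hasDerivAt_id z).const_mul α).add ((hasDerivAt_expU 2 z).mul
      ((((hasDerivAt_id z).div_const (2 * π * I : ℂ)).sub_const _ |>.const_mul β).add_const _))
      |>.congr_deriv ?_
    rw [mainTerm, add_mul, add_mul, mul_assoc α, he2]
    simp only [id_eq]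
    push_cast
    field_simp
    ring
  rw [magicPart_eq hm he zero_le_two hQ, endTerm, circE]
  have h2 : cexp (π * I * ((2 : ℝ) : ℂ)) = 1 := by
    rw [show (π : ℂ) * I * ((2 : ℝ) : ℂ) = 2 * π * I by push_cast; ring, Complex.exp_two_pi_mul_I]
  have e1 : ∀ z : ℂ, expU 2 (z + 1) = expU 2 z ∧ expU 2 (z - 1) = expU 2 z := fun z => by
    rw [(expU_add 2 z).1, (expU_add 2 z).2, Complex.exp_neg, h2]; simp
  rw [Complex.exp_neg, h2, show (1 : ℂ) + I = I + 1 by ring, show (-1 : ℂ) + I = I - 1 by ring,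
    (e1 I).1, (e1 I).2]
  ring

theorem magicPart_generic (hm : IsMagic ε Ψ) (he : HasExpansion ε Ψ α β γ) {u : ℝ} (hu : 0 < u)
    (hu2 : u ≠ 2) : magicPart ε Ψ u = circE u * (restInt Ψ α β γ u -
      raySum 1 (rayWeight Ψ 0) (fun y => -1 / rayPt 0 y) u - primMain α β γ u I) := by
  have hπ := pi_I_ne_zero
  have h0 : (u : ℂ) ≠ 0 := ofReal_ne_zero.2 hu.ne'
  have h2 : (u : ℂ) - 2 ≠ 0 := sub_ne_zero.2 (by exact_mod_cast hu2)
  have hQ : ∀ z, HasDerivAt (primMain α β γ u) (mainTerm α β γ z * expU u z) z := fun z => by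
    refine (hasDerivAt_expU u z).mul (((((hasDerivAt_expTwo z).const_mul α).div_const _).add
      ((((hasDerivAt_id z).div_const (π * I * u : ℂ)).sub_const _).const_mul β)).add_const _)
      |>.congr_deriv ?_
    simp only [mainTerm, id_eq, Pi.add_apply]
    field_simp
    ring
  have e1 : ∀ z : ℂ, cexp (-(2 * π * I * (z + 1))) = cexp (-(2 * π * I * z)) ∧
      cexp (-(2 * π * I * (z - 1))) = cexp (-(2 * π * I * z)) := fun z => by
    constructor <;>
      simp only [mul_add, mul_sub, mul_one, neg_add, neg_sub, Complex.exp_add, Complex.exp_sub,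
        Complex.exp_neg, Complex.exp_two_pi_mul_I] <;> ring
  have he' : cexp (-(π * I * u)) * cexp (π * I * u) = 1 := by
    rw [← Complex.exp_add, neg_add_cancel, Complex.exp_zero]
  rw [magicPart_eq hm he hu.le hQ, endTerm]
  simp only [primMain, show (1 : ℂ) + I = I + 1 by ring, show (-1 : ℂ) + I = I - 1 by ring,
    (expU_add u I).1, (expU_add u I).2, (e1 I).1, (e1 I).2]
  set X := α * cexp (-(2 * π * I * I)) / (π * I * ((u : ℂ) - 2))
  linear_combination (expU u I * (2 * (X + β * (I / (π * I * u) - 1 / (π * I * u) ^ 2) +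
    γ / (π * I * u)))) * he'

/-! ### On the axis -/

/-- `2 cos π u - 2`. -/
def circR (u : ℝ) : ℝ := 2 * Real.cos (π * u) - 2

theorem circR_nonpos (u : ℝ) : circR u ≤ 0 := by
  unfold circR; linarith [Real.cos_le_one (π * u)]

/-- The integral along `(0, i]`. -/
def innerInt (ψ : ℝ → ℝ) (u : ℝ) : ℝ :=
  ∫ y in Ioi (1 : ℝ), ψ y / y ^ 4 * Real.exp (-(π * u / y))

/-- The growing part on the axis. -/
def mainR (a b c : ℝ) (y : ℝ) : ℝ := a * Real.exp (2 * π * y) - b * y + c

/-- The dual kernel on the axis. -/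
def dualR (ψ : ℝ → ℝ) (y : ℝ) : ℝ := -(y ^ 2 * ψ y⁻¹)

/-- The integral along `[i, i ∞)` without the growing part. -/
def outerRest (ψ : ℝ → ℝ) (a b c u : ℝ) : ℝ :=
  ∫ y in Ioi (1 : ℝ), (dualR ψ y - mainR a b c y) * Real.exp (-(π * u * y))

/-- The primitive at `i`. -/
def primR (a b c u y : ℝ) : ℝ :=
  Real.exp (-(π * u * y)) * (-(a * Real.exp (2 * π * y)) / (π * (u - 2)) +
    b * (y / (π * u) + 1 / (π * u) ^ 2) - c / (π * u))

/-- The bracket. -/
def bracketR (ψ : ℝ → ℝ) (a b c u : ℝ) : ℝ :=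
  outerRest ψ a b c u - innerInt ψ u - primR a b c u 1

/-- A kernel with its data on the axis. -/
structure AxisData (Ψ : ℂ → ℂ) (α β γ : ℂ) (ψ : ℝ → ℝ) (a b c : ℝ) : Prop where
  val : ∀ y : ℝ, 0 < y → Ψ ((y : ℂ) * I) = (ψ y : ℂ)
  hα : α = (a : ℂ)
  hβ : β = (b : ℂ) * I
  hγ : γ = (c : ℂ)

theorem AxisData.dual {ψ : ℝ → ℝ} {a b c : ℝ} (h : AxisData Ψ α β γ ψ a b c) {y : ℝ}
    (hy : 0 < y) : dualKernel Ψ (rayPt 0 y) - mainTerm α β γ (rayPt 0 y) =
      ((dualR ψ y - mainR a b c y : ℝ) : ℂ) := by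
  have hy' : (y : ℂ) ≠ 0 := ofReal_ne_zero.2 hy.ne'
  rw [dualKernel, rayPt, ofReal_zero, zero_add,
    show -1 / ((y : ℂ) * I) = ((y⁻¹ : ℝ) : ℂ) * I by
      push_cast; field_simp; linear_combination -I_mul_I,
    h.val _ (inv_pos.2 hy), mainTerm, h.hα, h.hβ, h.hγ, dualR, mainR,
    show -(2 * (π : ℂ) * I * ((y : ℂ) * I)) = ((2 * π * y : ℝ) : ℂ) by
      push_cast; linear_combination (-2 * (π : ℂ) * y) * I_mul_I]
  push_cast
  linear_combination ((ψ y⁻¹ : ℂ) * y ^ 2 - (b : ℂ) * y) * I_sq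

theorem expU_axis (u y : ℝ) : expU u (rayPt 0 y) = ((Real.exp (-(π * u * y)) : ℝ) : ℂ) := by
  rw [expU, rayPt, ofReal_exp]
  congr 1
  push_cast
  linear_combination ((π : ℂ) * y * u) * I_mul_I

/-- **The magic transform is imaginary.** -/
theorem magicPart_axis {ψ : ℝ → ℝ} {a b c : ℝ} (hm : IsMagic ε Ψ)
    (he : HasExpansion ε Ψ α β γ) (h : AxisData Ψ α β γ ψ a b c) {u : ℝ} (hu : 0 < u)
    (hu2 : u ≠ 2) : magicPart ε Ψ u = ((circR u * bracketR ψ a b c u : ℝ) : ℂ) * I := by
  have hc : circE u = (circR u : ℂ) := by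
    rw [circE, circR, show (π : ℂ) * I * u = ((π * u : ℝ) : ℂ) * I by push_cast; ring]
    push_cast
    rw [Complex.two_cos]
    ring_nf
  have h1 : restInt Ψ α β γ u = (outerRest ψ a b c u : ℂ) * I := by
    rw [restInt, outerRest, ← integral_complex_ofReal, ← integral_mul_const]
    refine setIntegral_congr_fun measurableSet_Ioi fun y hy => ?_
    simp only [h.dual (lt_trans one_pos hy), expU_axis]
    push_cast
    ring
  have h2 : raySum 1 (rayWeight Ψ 0) (fun y => -1 / rayPt 0 y) u = (innerInt ψ u : ℂ) * I := by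
    rw [raySum, innerInt, ← integral_complex_ofReal, ← integral_mul_const]
    refine setIntegral_congr_fun measurableSet_Ioi fun y hy => ?_
    have hy0 : 0 < y := lt_trans one_pos hy
    have hy' : (y : ℂ) ≠ 0 := ofReal_ne_zero.2 hy0.ne'
    simp only [rayWeight, rayPt, ofReal_zero, zero_add, h.val _ hy0, mul_pow, I_pow_four, mul_one]
    rw [show (π : ℂ) * I * (-1 / ((y : ℂ) * I)) * u = ((-(π * u / y) : ℝ) : ℂ) by
      push_cast; field_simp]
    push_cast
    ring
  have h3 : primMain α β γ u I = (primR a b c u 1 : ℂ) * I := by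
    rw [primMain, primR, h.hα, h.hβ, h.hγ, show I = rayPt 0 1 by simp [rayPt], expU_axis,
      show rayPt 0 1 = I by simp [rayPt],
      show -(2 * (π : ℂ) * I * I) = ((2 * π * 1 : ℝ) : ℂ) by
        push_cast; linear_combination (-2 * (π : ℂ)) * I_mul_I]
    push_cast
    have hπ : (π : ℂ) ≠ 0 := ofReal_ne_zero.2 Real.pi_ne_zero
    have h0 : (u : ℂ) ≠ 0 := ofReal_ne_zero.2 hu.ne'
    have hd : (u : ℂ) - 2 ≠ 0 := sub_ne_zero.2 (by exact_mod_cast hu2)
    field_simp [I_ne_zero]
    ring_nf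
    simp only [I_sq]
    ring
  rw [magicPart_generic hm he hu hu2, hc, h1, h2, h3, bracketR]
  push_cast
  ring

theorem magicPart_re_zero {ψ : ℝ → ℝ} {a b c : ℝ} (hm : IsMagic ε Ψ)
    (he : HasExpansion ε Ψ α β γ) (h : AxisData Ψ α β γ ψ a b c) {u : ℝ} (hu : 0 ≤ u) :
    (magicPart ε Ψ u).re = 0 := by
  rcases hu.lt_or_eq with hu0 | rfl
  · rcases eq_or_ne u 2 with rfl | hu2
    · rw [magicPart_two hm he, Complex.zero_re]
    · simp [magicPart_axis hm he h hu0 hu2]
  · simp [magicPart_zero hm he, h.hβ]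

/-! ### The two kernels on the axis -/

/-- `φ₀ (i y)`. -/
def psiPlusR (y : ℝ) : ℝ := uR y ^ 2 / discR y

/-- `Ψ₋ (i y)`. -/
def psiMinusR (y : ℝ) : ℝ := -gR y / (2 * discR y)

theorem axisData_plus : AxisData kerPlus (-(36 / (π : ℂ) ^ 2)) (-(8640 * I / π))
    (-(18144 / (π : ℂ) ^ 2)) psiPlusR (-(36 / π ^ 2)) (-(8640 / π)) (-(18144 / π ^ 2)) := by
  refine ⟨fun y hy => ?_, by push_cast; ring, by push_cast; ring, by push_cast; ring⟩
  obtain ⟨ea, ec, ee, -, -⟩ := axis_real hy
  simp only [kerPlus, uForm, discForm, quadPoly, cubePoly, ea, ec, ee, psiPlusR, uR, discR, quadR,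
    cubeR]
  push_cast
  rfl

theorem axisData_minus : AxisData kerMinus 1 0 144 psiMinusR 1 0 144 := by
  refine ⟨fun y hy => ?_, by simp, by simp, by simp⟩
  obtain ⟨ea, ec, ee, -, -⟩ := axis_real hy
  simp only [kerMinus, discForm, ea, ec, psiMinusR, gR, discR]
  push_cast
  rfl

theorem continuousOn_psi : ContinuousOn psiPlusR (Ioi 0) ∧ ContinuousOn psiMinusR (Ioi 0) := by
  constructor <;> intro y hy
  · exact (((hasDerivAt_uR hy).continuousAt.pow 2).div (hasDerivAt_discR hy).continuousAt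
      (discR_pos hy).ne').continuousWithinAt
  · exact ((hasDerivAt_gR hy).continuousAt.neg.div ((hasDerivAt_discR hy).continuousAt.const_mul 2)
      (mul_ne_zero two_ne_zero (discR_pos hy).ne')).continuousWithinAt

theorem AxisData.integrable_outer {ψ : ℝ → ℝ} {a b c u : ℝ} (h : AxisData Ψ α β γ ψ a b c)
    (he : HasExpansion ε Ψ α β γ) (hψ : ContinuousOn ψ (Ioi 0)) (hu : 0 ≤ u) :
    IntegrableOn (fun y => (dualR ψ y - mainR a b c y) * Real.exp (-(π * u * y))) (Ioi 1) := by
  obtain ⟨C, hB⟩ := he.rest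
  refine ((exp_neg_integrableOn_Ioi 1 (show 0 < π / 2 by positivity)).const_mul C).mono' ?_ ?_
  · refine ContinuousOn.aestronglyMeasurable (fun y hy => ?_) measurableSet_Ioi
    have hy0 : (0 : ℝ) < y := lt_trans one_pos hy
    refine ContinuousAt.continuousWithinAt (ContinuousAt.mul (ContinuousAt.sub ?_ ?_) (by fun_prop))
    · exact (((continuousAt_id.pow 2).mul ((hψ.continuousAt (Ioi_mem_nhds (inv_pos.2 hy0))).comp
        (continuousAt_inv₀ hy0.ne'))).neg)
    · unfold mainR; fun_prop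
  refine (ae_restrict_iff' measurableSet_Ioi).2 (Eventually.of_forall fun y hy => ?_)
  have h1 := hB (rayPt 0 y) (by rw [im_rayPt]; exact le_of_lt hy) (by simp [re_rayPt])
  rw [h.dual (lt_trans one_pos hy), Complex.norm_real, im_rayPt] at h1
  rw [norm_mul]
  refine (mul_le_of_le_one_right (norm_nonneg _) ?_).trans h1
  rw [Real.norm_of_nonneg (Real.exp_pos _).le, Real.exp_le_one_iff, neg_nonpos]
  exact mul_nonneg (mul_nonneg Real.pi_pos.le hu) (le_of_lt (lt_trans one_pos hy))

theorem IsMagic.integrable_inner {ψ : ℝ → ℝ} {a b c u : ℝ} (hm : IsMagic ε Ψ)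
    (h : AxisData Ψ α β γ ψ a b c) (hu : 0 ≤ u) :
    IntegrableOn (fun y => ψ y / y ^ 4 * Real.exp (-(π * u / y))) (Ioi 1) := by
  have h1 := (hm.rays.2.2.1.integrable hu).norm
  have h2 := ((hm.rays.2.2.1.integrable hu).const_mul (-I)).re
  refine IntegrableOn.congr_fun h2 (fun y hy => ?_) measurableSet_Ioi
  have hy0 : 0 < y := lt_trans one_pos hy
  have hy' : (y : ℂ) ≠ 0 := ofReal_ne_zero.2 hy0.ne'
  simp only [rayWeight, rayPt, ofReal_zero, zero_add, h.val _ hy0, mul_pow, I_pow_four, mul_one]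
  rw [show (π : ℂ) * I * (-1 / ((y : ℂ) * I)) * u = ((-(π * u / y) : ℝ) : ℂ) by
    push_cast; field_simp]
  rw [show -I * ((ψ y : ℂ) / (y : ℂ) ^ 4 * I * cexp ((-(π * u / y) : ℝ) : ℂ)) =
    ((ψ y / y ^ 4 * Real.exp (-(π * u / y)) : ℝ) : ℂ) by
      push_cast; linear_combination (-((ψ y : ℂ) / y ^ 4 * cexp (-(π * u / y)))) * I_mul_I]
  exact Complex.ofReal_re _

theorem integral_mainR {a b c u : ℝ} (hu : 0 < u) (ha : a = 0 ∨ 2 < u) :
    IntegrableOn (fun y => mainR a b c y * Real.exp (-(π * u * y))) (Ioi 1) ∧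
      ∫ y in Ioi (1 : ℝ), mainR a b c y * Real.exp (-(π * u * y)) = -primR a b c u 1 := by
  have hπ := Real.pi_pos
  have e1 : ∀ y, mainR a b c y * Real.exp (-(π * u * y)) =
      a * Real.exp (-(π * (u - 2)) * y) + (-b) * (y * Real.exp (-(π * u) * y)) +
        c * Real.exp (-(π * u) * y) := fun y => by
    rw [mainR, show -(π * (u - 2)) * y = 2 * π * y + -(π * u) * y by ring, Real.exp_add]
    ring_nf
  have i1 : IntegrableOn (fun y => a * Real.exp (-(π * (u - 2)) * y)) (Ioi 1) := by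
    rcases ha with rfl | h2
    · simp
    · exact (exp_neg_integrableOn_Ioi 1 (show 0 < π * (u - 2) by nlinarith)).const_mul a
  have i2 : IntegrableOn (fun y => y * Real.exp (-(π * u) * y)) (Ioi 1) := by
    refine ((exp_neg_integrableOn_Ioi 1 (show 0 < π * u / 2 by positivity)).const_mul
      (2 / (π * u))).mono' (by fun_prop) ?_
    refine (ae_restrict_iff' measurableSet_Ioi).2 (Eventually.of_forall fun y hy => ?_)
    have hy0 : 0 < y := lt_trans one_pos hy
    rw [Real.norm_of_nonneg (by positivity),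
      show -(π * u) * y = -(π * u / 2) * y + -(π * u / 2) * y by ring, Real.exp_add, ← mul_assoc]
    refine mul_le_mul_of_nonneg_right ?_ (Real.exp_pos _).le
    have h := Real.pow_div_factorial_le_exp (π * u / 2 * y) (by positivity) 1
    simp only [pow_one, Nat.factorial_one, Nat.cast_one, div_one] at h
    rw [neg_mul, Real.exp_neg, mul_inv_le_iff₀ (Real.exp_pos _), div_mul_eq_mul_div,
      le_div_iff₀ (by positivity)]
    linarith
  have i3 : IntegrableOn (fun y => c * Real.exp (-(π * u) * y)) (Ioi 1) :=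
    (exp_neg_integrableOn_Ioi 1 (show 0 < π * u by positivity)).const_mul c
  have hint : IntegrableOn (fun y => mainR a b c y * Real.exp (-(π * u * y))) (Ioi 1) := by
    simp only [e1]; exact (i1.add (i2.const_mul (-b))).add i3
  refine ⟨hint, ?_⟩
  rw [show -primR a b c u 1 = 0 - primR a b c u 1 by ring]
  refine integral_Ioi_of_hasDerivAt_of_tendsto' (f := primR a b c u) (fun y _ => ?_) hint ?_
  · refine ((((hasDerivAt_id y).const_mul (π * u)).neg.exp).mul
      ((((((hasDerivAt_id y).const_mul (2 * π)).exp).const_mul a).neg.div_const _).add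
        ((((hasDerivAt_id y).div_const (π * u)).add_const _).const_mul b) |>.sub_const _)
      ).congr_deriv ?_
    simp only [mainR, id_eq, Pi.add_apply, Pi.neg_apply]
    rcases eq_or_ne u 2 with rfl | hu2
    · rcases ha with rfl | h2
      · field_simp; ring
      · exact absurd h2 (lt_irrefl 2)
    · have : u - 2 ≠ 0 := sub_ne_zero.2 hu2
      field_simp
      ring
  · have t0 : ∀ t : ℝ, 0 < t → Tendsto (fun y => Real.exp (-t * y)) atTop (𝓝 0) := fun t ht =>
      Real.tendsto_exp_atBot.comp (tendsto_id.const_mul_atTop_of_neg (neg_lt_zero.2 ht))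
    have t1 : Tendsto (fun y => y * Real.exp (-(π * u) * y)) atTop (𝓝 0) := by
      have := ((Real.tendsto_pow_mul_exp_neg_atTop_nhds_zero 1).comp
        (tendsto_id.const_mul_atTop (show 0 < π * u by positivity))).const_mul (π * u)⁻¹
      rw [mul_zero] at this
      refine this.congr fun y => ?_
      simp only [Function.comp_apply, id, pow_one, neg_mul]
      field_simp
    have t2 : Tendsto (fun y => a * Real.exp (-(π * (u - 2)) * y)) atTop (𝓝 0) := by
      rcases ha with rfl | h2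
      · simp
      · simpa using (t0 _ (show 0 < π * (u - 2) by nlinarith)).const_mul a
    have := ((t2.neg.div_const (π * (u - 2))).add ((t1.const_mul (b / (π * u))).add
      ((t0 _ (show 0 < π * u by positivity)).const_mul (b / (π * u) ^ 2 - c / (π * u)))))
    simp only [mul_zero, add_zero, neg_zero, zero_div] at this
    refine this.congr fun y => ?_
    rw [primR, show -(π * (u - 2)) * y = 2 * π * y + -(π * u) * y by ring, Real.exp_add]
    ring_nf

/-- The combined bracket. -/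
theorem bracket_combination {u : ℝ} (hu : 0 < u) (k : ℝ)
    (hk : -(-(36 / π ^ 2)) + k * 1 = 0 ∨ 2 < u) :
    -bracketR psiPlusR (-(36 / π ^ 2)) (-(8640 / π)) (-(18144 / π ^ 2)) u +
        k * bracketR psiMinusR 1 0 144 u =
      (∫ y in Ioi (1 : ℝ), dualR (fun y => -psiPlusR y + k * psiMinusR y) y *
          Real.exp (-(π * u * y))) -
        innerInt (fun y => -psiPlusR y + k * psiMinusR y) u := by
  have a1 := axisData_plus.integrable_outer hasExpansion_plus continuousOn_psi.1 hu.le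
  have a2 := axisData_minus.integrable_outer hasExpansion_minus continuousOn_psi.2 hu.le
  have b1 := isMagic_plus.integrable_inner axisData_plus hu.le
  have b2 := isMagic_minus.integrable_inner axisData_minus hu.le
  obtain ⟨m0, m1⟩ := integral_mainR (a := -(-(36 / π ^ 2)) + k * 1)
    (b := -(-(8640 / π)) + k * 0) (c := -(-(18144 / π ^ 2)) + k * 144) hu hk
  have hlin : primR (-(-(36 / π ^ 2)) + k * 1) (-(-(8640 / π)) + k * 0)
      (-(-(18144 / π ^ 2)) + k * 144) u 1 =
      -primR (-(36 / π ^ 2)) (-(8640 / π)) (-(18144 / π ^ 2)) u 1 + k * primR 1 0 144 u 1 := by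
    simp only [primR]; ring
  rw [hlin] at m1
  have e : (∫ y in Ioi (1 : ℝ), dualR (fun y => -psiPlusR y + k * psiMinusR y) y *
          Real.exp (-(π * u * y))) = -outerRest psiPlusR (-(36 / π ^ 2)) (-(8640 / π))
            (-(18144 / π ^ 2)) u + k * outerRest psiMinusR 1 0 144 u +
      ∫ y in Ioi (1 : ℝ), mainR (-(-(36 / π ^ 2)) + k * 1) (-(-(8640 / π)) + k * 0)
        (-(-(18144 / π ^ 2)) + k * 144) y * Real.exp (-(π * u * y)) := by
    rw [outerRest, outerRest, ← integral_neg, ← integral_const_mul,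
      ← integral_add a1.fun_neg (a2.const_mul k),
      ← integral_add (a1.fun_neg.fun_add (a2.const_mul k)) m0]
    refine setIntegral_congr_fun measurableSet_Ioi fun y _ => ?_
    simp only [dualR, mainR]
    ring
  have f : innerInt (fun y => -psiPlusR y + k * psiMinusR y) u =
      -innerInt psiPlusR u + k * innerInt psiMinusR u := by
    rw [innerInt, innerInt, innerInt, ← integral_neg, ← integral_const_mul,
      ← integral_add b1.fun_neg (b2.const_mul k)]
    refine setIntegral_congr_fun measurableSet_Ioi fun y _ => ?_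
    ring
  rw [e, f, m1, bracketR, bracketR]
  ring

/-! ### The function -/

/-- The magic function of `u = |x|²` and, for `σ = 1`, its Fourier transform. -/
def magicSum (σ : ℝ) (u : ℝ) : ℂ :=
  π * I / 8640 * magicPart 1 kerPlus u + σ * (I / (240 * π)) * magicPart (-1) kerMinus u

/-- The real values. -/
def magicVal (σ : ℝ) (u : ℝ) : ℝ := (magicSum σ u).re

theorem magicSum_eq (σ : ℝ) {u : ℝ} (hu : 0 ≤ u) : magicSum σ u = (magicVal σ u : ℂ) := by
  refine Complex.ext (by rw [ofReal_re, magicVal]) ?_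
  have h1 := magicPart_re_zero isMagic_plus hasExpansion_plus axisData_plus hu
  have h2 := magicPart_re_zero isMagic_minus hasExpansion_minus axisData_minus hu
  rw [ofReal_im, magicSum]
  simp [Complex.mul_re, h1, h2, Complex.div_im, Complex.div_re]

theorem magicVal_zero (σ : ℝ) : magicVal σ 0 = 1 := by
  rw [magicVal, magicSum, magicPart_zero isMagic_plus hasExpansion_plus,
    magicPart_zero isMagic_minus hasExpansion_minus, mul_zero, add_zero]
  have hπ : (π : ℂ) ≠ 0 := ofReal_ne_zero.2 Real.pi_ne_zero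
  rw [show (π : ℂ) * I / 8640 * -(8640 * I / π) = 1 by field_simp; linear_combination -I_sq]
  exact Complex.one_re

theorem magicVal_axis (σ : ℝ) {u : ℝ} (hu : 0 < u) (hu2 : u ≠ 2) :
    magicVal σ u = π / 8640 * (circR u * (-bracketR psiPlusR (-(36 / π ^ 2)) (-(8640 / π))
      (-(18144 / π ^ 2)) u + -σ * (36 / π ^ 2) * bracketR psiMinusR 1 0 144 u)) := by
  rw [magicVal, magicSum, magicPart_axis isMagic_plus hasExpansion_plus axisData_plus hu hu2,
    magicPart_axis isMagic_minus hasExpansion_minus axisData_minus hu hu2]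
  simp [Complex.div_re, Complex.div_im, Complex.normSq_apply]
  field_simp
  ring

/-- The sign criterion. -/
theorem magicVal_sign (σ : ℝ) {u : ℝ} (hu : 0 < u) (hu2 : u ≠ 2)
    (hk : -(-(36 / π ^ 2)) + -σ * (36 / π ^ 2) * 1 = 0 ∨ 2 < u) :
    (∀ y, 0 < y → -psiPlusR y + -σ * (36 / π ^ 2) * psiMinusR y ≤ 0) → magicVal σ u ≤ 0 := by
  intro h
  rw [magicVal_axis σ hu hu2, bracket_combination hu _ hk]
  refine mul_nonpos_of_nonneg_of_nonpos (by positivity)
    (mul_nonpos_of_nonpos_of_nonneg (circR_nonpos u) (sub_nonneg.2 ?_))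
  refine le_trans (setIntegral_nonpos measurableSet_Ioi fun y hy => ?_)
    (setIntegral_nonneg measurableSet_Ioi fun y hy => ?_)
  · exact mul_nonpos_of_nonpos_of_nonneg
      (div_nonpos_of_nonpos_of_nonneg (h y (lt_trans one_pos hy)) (by positivity))
      (Real.exp_pos _).le
  · refine mul_nonneg (neg_nonneg.2 (mul_nonpos_of_nonneg_of_nonpos (sq_nonneg y) ?_))
      (Real.exp_pos _).le
    exact h _ (inv_pos.2 (lt_trans one_pos hy))

theorem magicVal_nonpos {u : ℝ} (hu : 2 ≤ u) : magicVal (-1) u ≤ 0 := by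
  rcases hu.lt_or_eq with h | rfl
  · refine magicVal_sign (-1) (by linarith) h.ne' (Or.inr h) fun y hy => ?_
    have := gR_pos hy
    have := discR_pos hy
    have e : 0 ≤ uR y ^ 2 / discR y + 36 / π ^ 2 * (gR y / (2 * discR y)) := by positivity
    simp only [psiPlusR, psiMinusR, neg_div] at e ⊢
    linarith
  · rw [magicVal, magicSum, magicPart_two isMagic_plus hasExpansion_plus,
      magicPart_two isMagic_minus hasExpansion_minus]
    simp

theorem magicVal_nonneg {u : ℝ} (hu : 0 ≤ u) : 0 ≤ magicVal 1 u := by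
  rcases hu.lt_or_eq with h | rfl
  · rcases eq_or_ne u 2 with rfl | hu2
    · rw [magicVal, magicSum, magicPart_two isMagic_plus hasExpansion_plus,
        magicPart_two isMagic_minus hasExpansion_minus]
      simp
    · rw [magicVal_axis 1 h hu2, bracket_combination h _ (Or.inl (by ring))]
      have hpos : ∀ y, 0 < y → 0 ≤ -psiPlusR y + -1 * (36 / π ^ 2) * psiMinusR y := fun y hy => by
        have e := div_nonneg (sub_nonneg.2 (uR_sq_lt hy).le) (discR_pos hy).le
        simp only [psiPlusR, psiMinusR]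
        refine e.trans_eq ?_
        ring
      refine mul_nonneg (by positivity) (mul_nonneg_of_nonpos_of_nonpos (circR_nonpos u)
        (sub_nonpos.2 ?_))
      refine le_trans (setIntegral_nonpos measurableSet_Ioi fun y hy => ?_)
        (setIntegral_nonneg measurableSet_Ioi fun y hy => ?_)
      · refine mul_nonpos_of_nonpos_of_nonneg (neg_nonpos.2 (mul_nonneg (sq_nonneg y) ?_))
          (Real.exp_pos _).le
        exact hpos _ (inv_pos.2 (lt_trans one_pos hy))
      · exact mul_nonneg (div_nonneg (hpos y (lt_trans one_pos hy)) (by positivity))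
          (Real.exp_pos _).le
  · rw [magicVal_zero]; exact zero_le_one

theorem continuousOn_magicSum (σ : ℝ) : ContinuousOn (magicSum σ) (Ici 0) :=
  (continuousOn_const.mul isMagic_plus.continuousOn_magicPart).add
    (continuousOn_const.mul isMagic_minus.continuousOn_magicPart)

theorem decay_magicVal (σ : ℝ) :
    ∃ C, ∀ u : ℝ, 0 ≤ u → |magicVal σ u| * (1 + u) ^ 8 ≤ C := by
  obtain ⟨C1, h1⟩ := isMagic_plus.decay_magicPart
  obtain ⟨C2, h2⟩ := isMagic_minus.decay_magicPart
  refine ⟨‖(π : ℂ) * I / 8640‖ * C1 + ‖(σ : ℂ) * (I / (240 * π))‖ * C2, fun u hu => ?_⟩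
  refine (mul_le_mul_of_nonneg_right ((Complex.abs_re_le_norm _).trans (norm_add_le _ _))
    (by positivity)).trans ?_
  rw [add_mul, norm_mul (_ / _ : ℂ), norm_mul (_ * (_ / _) : ℂ), mul_assoc, mul_assoc]
  exact add_le_add (mul_le_mul_of_nonneg_left (h1 u hu) (norm_nonneg _))
    (mul_le_mul_of_nonneg_left (h2 u hu) (norm_nonneg _))

theorem integrable_magicPart {ε : ℂ} {Ψ : ℂ → ℂ} (h : IsMagic ε Ψ) (ξ : Fin 8 → ℝ) :
    Integrable fun x : Fin 8 → ℝ => cexp (-(2 * π * I * ∑ i, (ξ i : ℂ) * (x i : ℂ))) *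
      magicPart ε Ψ (∑ i, x i ^ 2) := by
  obtain ⟨C, hB⟩ := h.decay_magicPart
  have hd : FA.PackingLP.HasDecay (fun x : Fin 8 → ℝ => magicPart ε Ψ (∑ i, x i ^ 2)) :=
    ⟨C, fun x => by
      have hs : 0 ≤ ∑ i, x i ^ 2 := Finset.sum_nonneg fun i _ => sq_nonneg _
      rw [FA.PackingLP.radialWeight, ← div_eq_mul_inv, le_div_iff₀ (by positivity)]
      exact hB _ hs⟩
  obtain ⟨D, -, hD⟩ := hd.bound
  have hc : Continuous fun x : Fin 8 → ℝ => magicPart ε Ψ (∑ i, x i ^ 2) :=
    h.continuousOn_magicPart.comp_continuous (by fun_prop) fun x =>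
      mem_Ici.2 (Finset.sum_nonneg fun i _ => sq_nonneg (x i))
  refine (FA.PackingLP.integrable_prodWeight.const_mul D).mono'
    ((Continuous.mul (by fun_prop) hc).aestronglyMeasurable) (Eventually.of_forall fun x => ?_)
  refine le_of_eq_of_le ?_ (hD x)
  simp [Complex.norm_exp]

theorem fourier_magicSum (σ : ℝ) (ξ : Fin 8 → ℝ) :
    ∫ x : Fin 8 → ℝ, cexp (-(2 * π * I * ∑ i, (ξ i : ℂ) * (x i : ℂ))) *
      magicSum σ (∑ i, x i ^ 2) = magicSum (-σ) (∑ i, ξ i ^ 2) := by
  simp only [magicSum, mul_add, mul_left_comm _ (π * I / 8640 : ℂ),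
    mul_left_comm _ ((σ : ℂ) * (I / (240 * π)))]
  rw [integral_add ((integrable_magicPart isMagic_plus ξ).const_mul _)
      ((integrable_magicPart isMagic_minus ξ).const_mul _), integral_const_mul, integral_const_mul,
    isMagic_plus.fourier_magicPart, isMagic_minus.fourier_magicPart]
  push_cast
  ring

/-- The test function for radius one. -/
def magicTest (x : Fin 8 → ℝ) : ℝ := magicVal (-1) (2 * ∑ i, x i ^ 2)

/-- Its Fourier transform. -/
def magicTestFourier (ξ : Fin 8 → ℝ) : ℝ := magicVal 1 ((∑ i, ξ i ^ 2) / 2) / 16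

theorem isTestFunction_magicTest : FA.PackingLP.IsTestFunction magicTest magicTestFourier := by
  have hs : ∀ x : Fin 8 → ℝ, 0 ≤ ∑ i, x i ^ 2 := fun x => Finset.sum_nonneg fun i _ => sq_nonneg _
  refine ⟨?_, ?_, fun ξ => ?_, ?_, fun ξ => ?_, fun x hx => magicVal_nonpos (by linarith)⟩
  · exact Complex.continuous_re.comp ((continuousOn_magicSum (-1)).comp_continuous (by fun_prop)
      fun x => mem_Ici.2 (mul_nonneg zero_le_two (hs x)))
  · obtain ⟨C, hB⟩ := decay_magicVal (-1)
    refine ⟨C, fun x => ?_⟩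
    rw [FA.PackingLP.radialWeight, ← div_eq_mul_inv, le_div_iff₀ (by have := hs x; positivity)]
    refine le_trans (mul_le_mul_of_nonneg_left (pow_le_pow_left₀ (by linarith [hs x]) (?_ :
      1 + ∑ i, x i ^ 2 ≤ 1 + 2 * ∑ i, x i ^ 2) 8) (norm_nonneg _)) (hB _ (by linarith [hs x]))
    linarith [hs x]
  · set r := Real.sqrt 2
    have hr : r * r = 2 := Real.mul_self_sqrt zero_le_two
    have hr0 : r ≠ 0 := by positivity
    set h : (Fin 8 → ℝ) → ℂ := fun y => cexp (-(2 * π * I * ∑ i, ((ξ i / r : ℝ) : ℂ) * (y i : ℂ))) *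
      magicSum (-1) (∑ i, y i ^ 2)
    have he : ∀ x : Fin 8 → ℝ, cexp (-(2 * π * I * ∑ i, (ξ i : ℂ) * (x i : ℂ))) *
        (magicTest x : ℂ) = h (r • x) := fun x => by
      have e1 : ∑ i, (r • x) i ^ 2 = 2 * ∑ i, x i ^ 2 := by
        rw [Finset.mul_sum]
        refine Finset.sum_congr rfl fun i _ => ?_
        rw [Pi.smul_apply, smul_eq_mul, mul_pow, sq r, hr]
      have e2 : ∀ i, ((ξ i / r : ℝ) : ℂ) * (((r • x) i : ℝ) : ℂ) = (ξ i : ℂ) * (x i : ℂ) :=
        fun i => by
        rw [← ofReal_mul, ← ofReal_mul, Pi.smul_apply, smul_eq_mul]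
        congr 1
        field_simp
      simp only [h, e1, e2, magicTest]
      rw [magicSum_eq _ (mul_nonneg zero_le_two (hs x))]
    rw [FA.PackingLP.fourierT, integral_congr_ae (Eventually.of_forall he),
      Measure.integral_comp_smul, Module.finrank_fin_fun, fourier_magicSum, neg_neg,
      show ∑ i, (ξ i / r) ^ 2 = (∑ i, ξ i ^ 2) / 2 by
        rw [Finset.sum_div]; exact Finset.sum_congr rfl fun i _ => by rw [div_pow, sq r, hr],
      magicSum_eq _ (div_nonneg (hs ξ) zero_le_two), show r ^ 8 = 16 by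
        rw [show 8 = 2 * 4 by norm_num, pow_mul, sq, hr]; norm_num, magicTestFourier,
      Complex.real_smul]
    norm_num
    ring
  · obtain ⟨C, hB⟩ := decay_magicVal 1
    refine ⟨C * 2 ^ 8, fun x => ?_⟩
    rw [FA.PackingLP.radialWeight, ← div_eq_mul_inv, le_div_iff₀ (by have := hs x; positivity),
      magicTestFourier, norm_div, Real.norm_eq_abs]
    have h1 := hB _ (div_nonneg (hs x) zero_le_two)
    have h2 : (1 + ∑ i, x i ^ 2) ^ 8 ≤ 2 ^ 8 * (1 + (∑ i, x i ^ 2) / 2) ^ 8 := by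
      rw [← mul_pow]; exact pow_le_pow_left₀ (by linarith [hs x]) (by linarith [hs x]) 8
    calc |magicVal 1 ((∑ i, x i ^ 2) / 2)| / ‖(16 : ℝ)‖ * (1 + ∑ i, x i ^ 2) ^ 8
        ≤ |magicVal 1 ((∑ i, x i ^ 2) / 2)| * (2 ^ 8 * (1 + (∑ i, x i ^ 2) / 2) ^ 8) := by
          refine mul_le_mul ?_ h2 (by positivity [hs x]) (abs_nonneg _)
          exact div_le_self (abs_nonneg _) (by norm_num)
      _ = 2 ^ 8 * (|magicVal 1 ((∑ i, x i ^ 2) / 2)| * (1 + (∑ i, x i ^ 2) / 2) ^ 8) := by ring
      _ ≤ 2 ^ 8 * C := mul_le_mul_of_nonneg_left h1 (by norm_num)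
      _ = _ := mul_comm _ _
  · exact div_nonneg (magicVal_nonneg (div_nonneg (hs ξ) zero_le_two)) (by norm_num)

theorem magicTest_zero : magicTest 0 = 1 ∧ magicTestFourier 0 = 1 / 16 := by
  simp [magicTest, magicTestFourier, magicVal_zero]

end FA.Viazovska

end
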