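import Fermat.Agent.Viazovska.MagicFunction

/-!
# The zeros of the magic function

For `u > 2` outside `2 ℤ` the magic function is negative.
-/

set_option autoImplicit false

noncomputable section

open MeasureTheory Set Filter
open scoped Real

namespace FA.Viazovska

theorem setIntegral_Ioi_pos {g : ℝ → ℝ} (hi : IntegrableOn g (Ioi 1))
    (h : ∀ y ∈ Ioi (1 : ℝ), 0 < g y) : 0 < ∫ y in Ioi (1 : ℝ), g y := by
  rw [setIntegral_pos_iff_support_of_nonneg_ae
    ((ae_restrict_iff' measurableSet_Ioi).2 (Eventually.of_forall fun y hy => (h y hy).le)) hi,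
    Set.inter_eq_right.2 fun y hy => Function.mem_support.2 (h y hy).ne', Real.volume_Ioi]
  exact ENNReal.zero_lt_top

theorem circR_neg {u : ℝ} (hu : ∀ k : ℤ, u ≠ 2 * k) : circR u < 0 := by
  have h : Real.cos (π * u) ≠ 1 := fun h => by
    obtain ⟨k, hk⟩ := (Real.cos_eq_one_iff _).1 h
    exact hu k (mul_left_cancel₀ Real.pi_ne_zero (by linarith))
  have := lt_of_le_of_ne (Real.cos_le_one (π * u)) h
  unfold circR
  linarith

theorem magicVal_neg {u : ℝ} (hu : 2 < u) (hk : ∀ k : ℤ, u ≠ 2 * k) : magicVal (-1) u < 0 := by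
  have h0 : 0 < u := by linarith
  rw [magicVal_axis (-1) h0 hu.ne', bracket_combination h0 _ (Or.inr hu)]
  have hK : ∀ y, 0 < y → 0 < psiPlusR y + -(-(-1) * (36 / π ^ 2) * psiMinusR y) := fun y hy => by
    have := gR_pos hy
    have := discR_pos hy
    have e : 0 < uR y ^ 2 / discR y + 36 / π ^ 2 * (gR y / (2 * discR y)) :=
      add_pos_of_nonneg_of_pos (by positivity) (by positivity)
    simp only [psiPlusR, psiMinusR]
    refine e.trans_eq ?_
    ring
  refine mul_neg_of_pos_of_neg (by positivity)
    (mul_neg_of_neg_of_pos (circR_neg hk) (sub_pos.2 ?_))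
  refine lt_of_lt_of_le (b := 0) (neg_pos.1 ?_)
    (setIntegral_nonneg measurableSet_Ioi fun y hy => ?_)
  · rw [innerInt, ← integral_neg]
    refine setIntegral_Ioi_pos ?_ fun y hy => ?_
    · exact ((isMagic_plus.integrable_inner axisData_plus h0.le).sub
        ((isMagic_minus.integrable_inner axisData_minus h0.le).const_mul
          (-(-1) * (36 / π ^ 2)))).congr_fun (fun y _ => by simp only [Pi.sub_apply]; ring)
        measurableSet_Ioi
    · have hy0 : (0 : ℝ) < y := lt_trans one_pos hy
      have := mul_pos (div_pos (hK y hy0) (pow_pos hy0 4)) (Real.exp_pos (-(π * u / y)))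
      refine this.trans_eq ?_
      ring
  · refine mul_nonneg ?_ (Real.exp_pos _).le
    have := mul_nonneg (sq_nonneg y) (hK _ (inv_pos.2 (lt_trans one_pos hy))).le
    refine this.trans_eq ?_
    simp only [dualR]
    ring

/-- The test function vanishes only where `2 |x|²` is an even integer. -/
theorem magicTest_eq_zero (x : Fin 8 → ℝ) (h1 : 1 ≤ ∑ i, x i ^ 2) (h0 : magicTest x = 0) :
    ∃ k : ℤ, 2 * ∑ i, x i ^ 2 = 2 * k := by
  by_contra hk
  rw [not_exists] at hk
  rcases h1.lt_or_eq with h | h
  · exact (magicVal_neg (by linarith) hk).ne h0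
  · exact hk 1 (by rw [← h]; norm_num)

end FA.Viazovska

end
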