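import Fermat.Agent.Gleason.Theta
import Fermat.Agent.Root.SummaryQuasiModular
import Mathlib.NumberTheory.ModularForms.LevelOne.GradedRing

/-!
# The fourth powers of the theta constants

With `A = θ₃(2τ)` and `B = θ₂(2τ)` put `a = 4 A² B² = θ₂ ⁴` and `c = (A² - B²)² = θ₄ ⁴`, so that
`θ₃ ⁴ = a + c`. Then `E₄ = a² + a c + c²`, `2 E₆ = (a + 2c) (2a + c) (c - a)`,
`256 Δ = (a c (a + c))²` and, by the identities of Ramanujan, with `D = (2 π i)⁻¹ d/dτ`,
`6 D a = a (E₂ + a + 2c)`, `6 D c = c (E₂ - 2a - c)`.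
-/

set_option autoImplicit false

noncomputable section

open UpperHalfPlane hiding I
open Complex Filter FA.Gleason FA.Eis SlashInvariantForm
open scoped Real Topology MatrixGroups ModularForm Manifold

namespace FA.Viazovska

/-- `θ₂ ⁴`. -/
def thetaFourthTwo (τ : ℂ) : ℂ := 4 * thetaA τ ^ 2 * thetaB τ ^ 2

/-- `θ₄ ⁴`. -/
def thetaFourthFour (τ : ℂ) : ℂ := (thetaA τ ^ 2 - thetaB τ ^ 2) ^ 2

local notation "hA" => thetaFourthTwo
local notation "hC" => thetaFourthFour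

/-- `E₄` in terms of the fourth powers. -/
def quadPoly (a c : ℂ) : ℂ := a ^ 2 + a * c + c ^ 2

/-- `E₆` in terms of the fourth powers. -/
def cubePoly (a c : ℂ) : ℂ := (a + 2 * c) * (2 * a + c) * (c - a) / 2

theorem thetaFourth_add_one (τ : ℂ) : hA (τ + 1) = -hA τ ∧ hC (τ + 1) = hA τ + hC τ := by
  refine ⟨?_, ?_⟩ <;>
    simp only [thetaFourthTwo, thetaFourthFour, thetaA_add_one, thetaB_add_one, mul_pow, I_sq] <;>
    ring

theorem thetaFourth_inversion {τ : ℂ} (hτ : 0 < τ.im) :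
    hA (-1 / τ) = -(τ ^ 2 * hC τ) ∧ hC (-1 / τ) = -(τ ^ 2 * hA τ) := by
  obtain ⟨h1, h2⟩ := theta_inversion hτ
  have hs : ((-I * (τ / 2)) ^ (1 / 2 : ℂ)) ^ 2 = -I * (τ / 2) := by
    rw [← cpow_nat_mul]; norm_num
  refine ⟨?_, ?_⟩ <;>
    simp only [thetaFourthTwo, thetaFourthFour, h1, h2, mul_pow, hs]
  · linear_combination (τ ^ 2 * (thetaA τ ^ 2 - thetaB τ ^ 2) ^ 2) * I_sq
  · linear_combination (4 * τ ^ 2 * thetaA τ ^ 2 * thetaB τ ^ 2) * I_sq

theorem differentiableAt_thetaFourth {τ : ℂ} (hτ : 0 < τ.im) :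
    DifferentiableAt ℂ hA τ ∧ DifferentiableAt ℂ hC τ :=
  ⟨((differentiableAt_thetaA hτ).pow 2 |>.const_mul 4).mul ((differentiableAt_thetaB hτ).pow 2),
    (((differentiableAt_thetaA hτ).pow 2).sub ((differentiableAt_thetaB hτ).pow 2)).pow 2⟩

theorem tendsto_thetaFourth : Tendsto (fun z : ℍ => hA z) atImInfty (𝓝 0) ∧
    Tendsto (fun z : ℍ => hC z) atImInfty (𝓝 1) := by
  refine ⟨?_, ?_⟩
  · simpa [thetaFourthTwo] using ((tendsto_thetaA.pow 2).const_mul 4).mul (tendsto_thetaB.pow 2)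
  · simpa [thetaFourthFour] using ((tendsto_thetaA.pow 2).sub (tendsto_thetaB.pow 2)).pow 2

/-! ### Level one forms out of them -/

/-- A polynomial with the two symmetries of weight `k`. -/
structure IsSym (k : ℕ) (P : ℂ → ℂ → ℂ) : Prop where
  swap : ∀ z a c : ℂ, P (-(z ^ 2 * c)) (-(z ^ 2 * a)) = z ^ k * P a c
  turn : ∀ a c : ℂ, P (-a) (a + c) = P a c
  diff : Differentiable ℂ fun v : ℂ × ℂ => P v.1 v.2

variable {k : ℕ} {P : ℂ → ℂ → ℂ}

theorem IsSym.slash_S (h : IsSym k P) :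
    (fun z : ℍ => P (hA z) (hC z)) ∣[(k : ℤ)] ModularGroup.S =
      fun z : ℍ => P (hA z) (hC z) := by
  funext z
  have hz : (z : ℂ) ≠ 0 := UpperHalfPlane.ne_zero z
  obtain ⟨h1, h2⟩ := thetaFourth_inversion (τ := z) z.im_pos
  rw [ModularForm.SL_slash_apply, ModularGroup.denom_S, UpperHalfPlane.modular_S_smul]
  show P (hA (-(z : ℂ))⁻¹) (hC (-(z : ℂ))⁻¹) * (z : ℂ) ^ (-(k : ℤ)) = _
  rw [show (-(z : ℂ))⁻¹ = -1 / (z : ℂ) by field_simp, h1, h2, h.swap, zpow_neg, zpow_natCast]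
  field_simp

theorem IsSym.slash_T (h : IsSym k P) :
    (fun z : ℍ => P (hA z) (hC z)) ∣[(k : ℤ)] ModularGroup.T =
      fun z : ℍ => P (hA z) (hC z) := by
  funext z
  rw [ModularForm.SL_slash_apply, UpperHalfPlane.modular_T_smul, UpperHalfPlane.coe_vadd]
  simp only [denom, ModularGroup.T]
  rw [Complex.ofReal_one, add_comm (1 : ℂ) z, (thetaFourth_add_one _).1, (thetaFourth_add_one _).2,
    h.turn]
  simp

theorem IsSym.tendsto (h : IsSym k P) :
    Tendsto (fun z : ℍ => P (hA z) (hC z)) atImInfty (𝓝 (P 0 1)) :=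
  (h.diff.continuous.tendsto ((0, 1) : ℂ × ℂ)).comp
    (tendsto_thetaFourth.1.prodMk_nhds tendsto_thetaFourth.2)

/-- The form of weight `k`. -/
def IsSym.form (h : IsSym k P) : ModularForm 𝒮ℒ (k : ℤ) where
  toFun z := P (hA z) (hC z)
  slash_action_eq' A hA' := by
    obtain ⟨A, rfl⟩ := hA'
    exact slash_action_generators_SL2Z h.slash_S h.slash_T A
  holo' := by
    rw [UpperHalfPlane.mdifferentiable_iff]
    refine DifferentiableOn.congr (f := fun w : ℂ => P (hA w) (hC w)) (fun w hw => ?_)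
      fun w hw => by simp [ofComplex_apply_of_im_pos hw]
    exact ((h.diff _).comp w ((differentiableAt_thetaFourth hw).1.prodMk
      (differentiableAt_thetaFourth hw).2)).differentiableWithinAt
  bdd_at_cusps' hc := by
    rw [Subgroup.IsArithmetic.isCusp_iff_isCusp_SL2Z] at hc
    refine (OnePoint.isBoundedAt_iff_forall_SL2Z hc).2 fun γ _ => ?_
    rw [slash_action_generators_SL2Z h.slash_S h.slash_T γ]
    exact h.tendsto.isBigO_one ℝ

/-- Below weight twelve a level one form is fixed by its value at `∞`. -/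
theorem levelOne_ext {f g : ModularForm 𝒮ℒ (k : ℤ)} (hk : k < 12) {L : ℂ}
    (hf : Tendsto (fun z : ℍ => f z) atImInfty (𝓝 L))
    (hg : Tendsto (fun z : ℍ => g z) atImInfty (𝓝 L)) : f = g := by
  refine sub_eq_zero.1 (ModularForm.sturm_bound_levelOne_nat ?_)
  rw [Nat.div_eq_of_lt hk]
  have h0 : (UpperHalfPlane.qExpansion 1 ⇑(f - g)).coeff 0 = 0 := by
    refine tendsto_nhds_unique ((IsLv.of_modularForm (f - g)).hasQ.tendsto one_pos) ?_
    exact sub_self L ▸ hf.sub hg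
  refine lt_of_le_of_ne bot_le fun h => ?_
  exact ((PowerSeries.order_eq_nat).1 h.symm).1 h0

theorem isSym_quadPoly : IsSym 4 quadPoly :=
  ⟨fun z a c => by simp only [quadPoly]; ring, fun a c => by simp only [quadPoly]; ring,
    by unfold quadPoly; fun_prop⟩

theorem isSym_cubePoly : IsSym 6 cubePoly :=
  ⟨fun z a c => by simp only [cubePoly]; ring, fun a c => by simp only [cubePoly]; ring,
    by unfold cubePoly; fun_prop⟩

theorem eFour_eq (z : ℍ) : ModularForm.E₄ z = quadPoly (hA z) (hC z) := by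
  have h := levelOne_ext (k := 4) (f := ModularForm.E₄) (g := isSym_quadPoly.form) (L := 1)
    (by norm_num) (by simpa [FA.Tau.eFourInt] using FA.Tau.hasQ_eFour.tendsto one_pos)
    (by have h := isSym_quadPoly.tendsto; rwa [show quadPoly 0 1 = 1 by simp [quadPoly]] at h)
  exact congrArg (fun F : ModularForm 𝒮ℒ (4 : ℤ) => F z) h

theorem eSix_eq (z : ℍ) : ModularForm.E₆ z = cubePoly (hA z) (hC z) := by
  have h := levelOne_ext (k := 6) (f := ModularForm.E₆) (g := isSym_cubePoly.form) (L := 1)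
    (by norm_num) (by simpa [FA.Tau.eSixInt] using FA.Tau.hasQ_eSix.tendsto one_pos)
    (by have h := isSym_cubePoly.tendsto; rwa [show cubePoly 0 1 = 1 by simp [cubePoly]] at h)
  exact congrArg (fun F : ModularForm 𝒮ℒ (6 : ℤ) => F z) h

theorem discriminant_eq (z : ℍ) :
    ModularForm.discriminant z = (hA z * hC z * (hA z + hC z)) ^ 2 / 256 := by
  rw [ModularForm.discriminant_eq_E₄_cube_sub_E₆_sq, eFour_eq, eSix_eq, quadPoly, cubePoly]
  ring

theorem thetaFourth_ne_zero {τ : ℂ} (hτ : 0 < τ.im) :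
    hA τ ≠ 0 ∧ hC τ ≠ 0 ∧ hA τ + hC τ ≠ 0 := by
  have h := ModularForm.discriminant_ne_zero ⟨τ, hτ⟩
  rw [discriminant_eq] at h
  simp only [ne_eq, div_eq_zero_iff, pow_eq_zero_iff two_ne_zero, mul_eq_zero, not_or] at h
  exact ⟨h.1.1.1, h.1.1.2, h.1.2⟩

/-! ### The derivatives -/

/-- The quasimodular form `E₂` as a function on `ℂ`. -/
def eisTwo (τ : ℂ) : ℂ := EisensteinSeries.E2 (ofComplex τ)

theorem hasDerivAt_of_D {f : ℍ → ℂ} (hf : MDiff f) {v : ℂ} (z : ℍ)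
    (h : Derivative.normalizedDerivOfComplex f z = v) :
    HasDerivAt (f ∘ ofComplex) (2 * π * I * v) z := by
  refine (mdifferentiableAt_iff.1 (hf z)).hasDerivAt.congr_deriv ?_
  rw [← h, Derivative.normalizedDerivOfComplex, ← mul_assoc,
    mul_inv_cancel₀ Complex.two_pi_I_ne_zero, one_mul]

theorem ramanujan_four_six (z : ℍ) :
    Derivative.normalizedDerivOfComplex ⇑ModularForm.E₄ z =
        (EisensteinSeries.E2 z * ModularForm.E₄ z - ModularForm.E₆ z) / 3 ∧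
      Derivative.normalizedDerivOfComplex ⇑ModularForm.E₆ z =
        (EisensteinSeries.E2 z * ModularForm.E₆ z - ModularForm.E₄ z ^ 2) / 2 := by
  refine ⟨?_, ?_⟩
  · have h1 := (FA.Tau.hasQ_deriv FA.Tau.hasQ_eFour).smul (3 : ℂ)
    have h2 := (FA.Tau.hasQ_eTwo.mul one_pos FA.Tau.hasQ_eFour).sub FA.Tau.hasQ_eSix
    rw [← map_mul, ← map_sub, ← FA.Tau.theta_eFour, map_mul, map_ofNat] at h2
    rw [PowerSeries.smul_eq_C_mul, map_ofNat] at h1
    have e := (h1 z).unique (h2 z)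
    simp only [Pi.smul_apply, Pi.sub_apply, Pi.mul_apply, smul_eq_mul] at e
    linear_combination e / 3
  · have h1 := (FA.Tau.hasQ_deriv FA.Tau.hasQ_eSix).smul (2 : ℂ)
    have h2 := (FA.Tau.hasQ_eTwo.mul one_pos FA.Tau.hasQ_eSix).sub
      (FA.Tau.hasQ_eFour.pow one_pos 2)
    rw [← map_mul, ← map_pow, ← map_sub, ← FA.Tau.theta_eSix, map_mul, map_ofNat] at h2
    rw [PowerSeries.smul_eq_C_mul, map_ofNat] at h1
    have e := (h1 z).unique (h2 z)
    simp only [Pi.smul_apply, Pi.sub_apply, Pi.mul_apply, Pi.pow_apply, smul_eq_mul] at e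
    linear_combination e / 2

theorem hasDerivAt_eisTwo {τ : ℂ} (hτ : 0 < τ.im) :
    HasDerivAt eisTwo (2 * π * I * ((eisTwo τ ^ 2 - quadPoly (hA τ) (hC τ)) / 12)) τ := by
  refine hasDerivAt_of_D E2_mdifferentiable ⟨τ, hτ⟩ ?_
  rw [FA.Summary.ramanujan_derivative_eTwo, eFour_eq, eisTwo, ofComplex_apply_of_im_pos hτ]

theorem hasDerivAt_thetaFourth {τ : ℂ} (hτ : 0 < τ.im) :
    HasDerivAt hA (2 * π * I * (hA τ * (eisTwo τ + hA τ + 2 * hC τ) / 6)) τ ∧
      HasDerivAt hC (2 * π * I * (hC τ * (eisTwo τ - 2 * hA τ - hC τ) / 6)) τ := by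
  obtain ⟨ha, hc⟩ := differentiableAt_thetaFourth hτ
  have hnhds : {w : ℂ | 0 < w.im} ∈ 𝓝 τ := isOpen_upperHalfPlaneSet.mem_nhds hτ
  have hE2 : eisTwo τ = EisensteinSeries.E2 ⟨τ, hτ⟩ := by
    rw [eisTwo, ofComplex_apply_of_im_pos hτ]
  set a := hA τ
  set c := hC τ
  set E := eisTwo τ
  have e4 : (⇑ModularForm.E₄ ∘ ofComplex) =ᶠ[𝓝 τ] fun w => quadPoly (hA w) (hC w) :=
    eventually_of_mem hnhds fun w hw => by
      rw [Function.comp_apply, ofComplex_apply_of_im_pos hw, eFour_eq]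
  have e6 : (⇑ModularForm.E₆ ∘ ofComplex) =ᶠ[𝓝 τ] fun w => cubePoly (hA w) (hC w) :=
    eventually_of_mem hnhds fun w hw => by
      rw [Function.comp_apply, ofComplex_apply_of_im_pos hw, eSix_eq]
  have d4 := hasDerivAt_of_D ModularForm.E₄.holo' ⟨τ, hτ⟩ (ramanujan_four_six ⟨τ, hτ⟩).1
  have d6 := hasDerivAt_of_D ModularForm.E₆.holo' ⟨τ, hτ⟩ (ramanujan_four_six ⟨τ, hτ⟩).2
  rw [eFour_eq, eSix_eq, ← hE2] at d4 d6
  have q4 : HasDerivAt (fun w => quadPoly (hA w) (hC w))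
      ((2 * a + c) * deriv hA τ + (a + 2 * c) * deriv hC τ) τ := by
    refine (((ha.hasDerivAt.pow 2).add (ha.hasDerivAt.mul hc.hasDerivAt)).add
      (hc.hasDerivAt.pow 2)).congr_deriv ?_
    simp only [Nat.cast_ofNat, Nat.add_one_sub_one, pow_one]
    ring
  have q6 : HasDerivAt (fun w => cubePoly (hA w) (hC w))
      (((-6 * a ^ 2 - 6 * a * c + 3 * c ^ 2) * deriv hA τ +
        (-3 * a ^ 2 + 6 * a * c + 6 * c ^ 2) * deriv hC τ) / 2) τ := by
    refine ((((ha.hasDerivAt.add (hc.hasDerivAt.const_mul 2)).mul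
      ((ha.hasDerivAt.const_mul 2).add hc.hasDerivAt)).mul
        (hc.hasDerivAt.sub ha.hasDerivAt)).div_const 2).congr_deriv ?_
    simp only [Pi.add_apply, Pi.sub_apply, Pi.mul_apply, a, c]
    ring
  have r4 := q4.unique (d4.congr_of_eventuallyEq e4.symm)
  have r6 := q6.unique (d6.congr_of_eventuallyEq e6.symm)
  have hne : 27 * a * c * (a + c) ≠ 0 := by
    obtain ⟨h1, h2, h3⟩ := thetaFourth_ne_zero hτ
    simp [a, c, h1, h2, h3]
  simp only [quadPoly, cubePoly] at r4 r6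
  refine ⟨ha.hasDerivAt.congr_deriv (mul_left_cancel₀ hne ?_),
    hc.hasDerivAt.congr_deriv (mul_left_cancel₀ hne ?_)⟩
  · linear_combination (-3 * a ^ 2 + 6 * a * c + 6 * c ^ 2) * r4 - 2 * (a + 2 * c) * r6
  · linear_combination -(-6 * a ^ 2 - 6 * a * c + 3 * c ^ 2) * r4 + 2 * (2 * a + c) * r6

end FA.Viazovska

end
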