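import Fermat.Agent.Viazovska.Forms

/-!
# Expansions at `∞`

In the nome `w = exp (π i τ)`: `a = 16 w (1 + 4 w²) + O(w⁵)`, `c = 1 - 8 w + 24 w² + O(w³)` and
`Δ = w² (1 - 24 w²) + O(w⁵)`.
-/

set_option autoImplicit false

noncomputable section

open UpperHalfPlane hiding I
open Complex Filter Asymptotics FA.Gleason FA.Eis
open scoped Real Topology

namespace FA.Viazovska

local notation "hA" => thetaFourthTwo
local notation "hC" => thetaFourthFour

/-- Imaginary parts tending to `∞`. -/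
def imTop : Filter ℂ := comap Complex.im atTop

/-- The nome. -/
def nome (z : ℂ) : ℂ := cexp (π * I * z)

theorem norm_nome (z : ℂ) : ‖nome z‖ = Real.exp (-(π * z.im)) := by
  simp [nome, Complex.norm_exp]

theorem nome_ne_zero (z : ℂ) : nome z ≠ 0 := Complex.exp_ne_zero _

theorem tendsto_nome : Tendsto nome imTop (𝓝 0) := by
  rw [tendsto_zero_iff_norm_tendsto_zero]
  refine (Real.tendsto_exp_atBot.comp ((tendsto_comap (f := Complex.im)).const_mul_atTop_of_neg
    (neg_lt_zero.2 Real.pi_pos))).congr fun z => ?_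
  simp [norm_nome]

theorem eventually_imTop (y : ℝ) : ∀ᶠ z : ℂ in imTop, y ≤ z.im :=
  tendsto_comap.eventually (eventually_ge_atTop y)

/-- `f ≡ g` modulo `w ^ N` near `∞`. -/
def Cong (N : ℕ) (f g : ℂ → ℂ) : Prop := (fun z => f z - g z) =O[imTop] fun z => nome z ^ N

/-- Bounded near `∞`. -/
def Bd (f : ℂ → ℂ) : Prop := f =O[imTop] fun _ => (1 : ℂ)

theorem Bd.of_tendsto {f : ℂ → ℂ} {l : ℂ} (h : Tendsto f imTop (𝓝 l)) : Bd f := h.isBigO_one ℂ

theorem bd_const (c : ℂ) : Bd fun _ => c := isBigO_const_const c one_ne_zero _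

theorem bd_nome : Bd nome := .of_tendsto tendsto_nome

theorem Bd.add {f g : ℂ → ℂ} (hf : Bd f) (hg : Bd g) : Bd fun z => f z + g z := IsBigO.add hf hg

theorem Bd.sub {f g : ℂ → ℂ} (hf : Bd f) (hg : Bd g) : Bd fun z => f z - g z := IsBigO.sub hf hg

theorem Bd.mul {f g : ℂ → ℂ} (hf : Bd f) (hg : Bd g) : Bd fun z => f z * g z := by
  simpa [Bd] using IsBigO.mul hf hg

theorem Bd.pow {f : ℂ → ℂ} (hf : Bd f) (k : ℕ) : Bd fun z => f z ^ k := by
  simpa [Bd] using IsBigO.pow hf k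

theorem Cong.mono {M N : ℕ} {f g : ℂ → ℂ} (h : Cong N f g) (hMN : M ≤ N) : Cong M f g := by
  obtain ⟨d, rfl⟩ := Nat.exists_eq_add_of_le hMN
  refine h.trans ?_
  simpa [pow_add] using (isBigO_refl (fun z => nome z ^ M) imTop).mul (bd_nome.pow d)

theorem cong_refl (N : ℕ) (f : ℂ → ℂ) : Cong N f f := by
  simpa [Cong] using isBigO_zero (fun z => nome z ^ N) imTop

theorem Cong.trans {N : ℕ} {f g h : ℂ → ℂ} (h1 : Cong N f g) (h2 : Cong N g h) : Cong N f h :=
  (IsBigO.add h1 h2).congr_left fun z => by ring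

theorem Cong.add {N : ℕ} {f f' g g' : ℂ → ℂ} (h1 : Cong N f f') (h2 : Cong N g g') :
    Cong N (fun z => f z + g z) fun z => f' z + g' z :=
  (IsBigO.add h1 h2).congr_left fun z => by ring

theorem Cong.sub {N : ℕ} {f f' g g' : ℂ → ℂ} (h1 : Cong N f f') (h2 : Cong N g g') :
    Cong N (fun z => f z - g z) fun z => f' z - g' z :=
  (IsBigO.sub h1 h2).congr_left fun z => by ring

theorem Cong.const_mul {N : ℕ} {f f' : ℂ → ℂ} (h : Cong N f f') (c : ℂ) :
    Cong N (fun z => c * f z) fun z => c * f' z :=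
  (h.const_mul_left c).congr_left fun z => by ring

theorem Cong.mul {N : ℕ} {f f' g g' : ℂ → ℂ} (h1 : Cong N f f') (h2 : Cong N g g') (hf : Bd f')
    (hg : Bd g) : Cong N (fun z => f z * g z) fun z => f' z * g' z :=
  ((IsBigO.mul h1 hg).congr_right fun z => mul_one _).add
    ((IsBigO.mul hf h2).congr_right fun z => one_mul _) |>.congr_left fun z => by ring

theorem Cong.mul_nome {N : ℕ} {f f' : ℂ → ℂ} (h : Cong N f f') (k : ℕ) :
    Cong (N + k) (fun z => f z * nome z ^ k) fun z => f' z * nome z ^ k := by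
  simpa [Cong, pow_add, sub_mul] using IsBigO.mul h (isBigO_refl (fun z => nome z ^ k) imTop)

theorem Cong.bd {N : ℕ} {f g : ℂ → ℂ} (h : Cong N f g) (hg : Bd g) : Bd f :=
  ((h.mono (Nat.zero_le N)).congr_right fun z => pow_zero _).add hg |>.congr_left fun z => by ring

/-- A polynomial in the nome is congruent to its truncation. -/
theorem cong_of_eq {N : ℕ} {f g : ℂ → ℂ} (r : ℂ → ℂ) (hr : Bd r)
    (h : ∀ z, f z - g z = nome z ^ N * r z) : Cong N f g :=
  ((isBigO_refl (fun z => nome z ^ N) imTop).mul hr).congr (fun z => (h z).symm) fun _ => mul_one _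

theorem Cong.tendsto {N : ℕ} {f g : ℂ → ℂ} {l : ℂ} (h : Cong N f g) (hN : N ≠ 0)
    (hg : Tendsto g imTop (𝓝 l)) : Tendsto f imTop (𝓝 l) := by
  have h0 : Tendsto (fun z => f z - g z) imTop (𝓝 0) := h.trans_tendsto (by
    simpa [hN] using tendsto_nome.pow N)
  simpa using h0.add hg

theorem theta_tail {x : ℂ} (hx : 1 ≤ x.im) :
    ‖jacobiTheta x - 1 - 2 * cexp (π * I * x) - 2 * cexp (4 * π * I * x)‖ ≤
      2 / (1 - Real.exp (-π)) * Real.exp (-(9 * π * x.im)) := by
  have hr : Real.exp (-π) < 1 := Real.exp_lt_one_iff.2 (neg_lt_zero.2 Real.pi_pos)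
  have hg := (hasSum_geometric_of_lt_one (Real.exp_pos _).le hr).mul_left
    (Real.exp (-(9 * π * x.im)))
  have hb : ∀ n : ℕ, ‖cexp (π * I * (((n + 2 : ℕ) : ℂ) + 1) ^ 2 * x)‖ ≤
      Real.exp (-(9 * π * x.im)) * Real.exp (-π) ^ n := fun n => by
    have him : (π * I * (((n + 2 : ℕ) : ℂ) + 1) ^ 2 * x).re =
        -(π * ((n : ℝ) + 3) ^ 2 * x.im) := by
      rw [show (π : ℂ) * I * (((n + 2 : ℕ) : ℂ) + 1) ^ 2 * x =
          I * (((π * ((n : ℝ) + 3) ^ 2 : ℝ) : ℂ) * x) by push_cast; ring, Complex.I_mul_re,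
        Complex.im_ofReal_mul]
    rw [Complex.norm_exp, him, ← Real.exp_nat_mul, ← Real.exp_add, Real.exp_le_exp]
    have hn : (0 : ℝ) ≤ n := n.cast_nonneg
    nlinarith [Real.pi_pos, mul_le_mul_of_nonneg_left hx
      (mul_nonneg Real.pi_pos.le (show (0 : ℝ) ≤ (n : ℝ) ^ 2 + 6 * n by positivity)),
      mul_nonneg Real.pi_pos.le (sq_nonneg (n : ℝ)), mul_nonneg Real.pi_pos.le hn]
  have hs := ((hasSum_nat_add_iff' 2).2 (hasSum_nat_jacobiTheta (show 0 < x.im by linarith)))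
  have hle := tsum_of_norm_bounded hg hb
  rw [hs.tsum_eq, Finset.sum_range_succ, Finset.sum_range_one] at hle
  have hrw : jacobiTheta x - 1 - 2 * cexp (π * I * x) - 2 * cexp (4 * π * I * x) =
      2 * ((jacobiTheta x - 1) / 2 - (cexp (π * I * (((0 : ℕ) : ℂ) + 1) ^ 2 * x) +
        cexp (π * I * (((1 : ℕ) : ℂ) + 1) ^ 2 * x))) := by
    push_cast; ring_nf
  rw [hrw, norm_mul, Complex.norm_two, show 2 / (1 - Real.exp (-π)) * Real.exp (-(9 * π * x.im)) =
    2 * (Real.exp (-(9 * π * x.im)) * (1 - Real.exp (-π))⁻¹) by ring]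
  exact mul_le_mul_of_nonneg_left hle zero_le_two

theorem cong_thetaA : Cong 4 thetaA fun z => 1 + 2 * nome z ^ 2 := by
  refine IsBigO.of_bound (2 / (1 - Real.exp (-π)) + 2) ?_
  filter_upwards [eventually_imTop 1] with z hz
  have h := theta_tail (x := 2 * z) (by simp; linarith)
  have e1 : cexp (π * I * (2 * z)) = nome z ^ 2 := by rw [nome, ← Complex.exp_nat_mul]; ring_nf
  have e2 : cexp (4 * π * I * (2 * z)) = nome z ^ 8 := by rw [nome, ← Complex.exp_nat_mul]; ring_nf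
  rw [e1, e2, show (2 * z).im = 2 * z.im by simp] at h
  have h2 : Real.exp (-(9 * π * (2 * z.im))) ≤ Real.exp (-(π * z.im)) ^ 4 := by
    rw [← Real.exp_nat_mul]; exact Real.exp_le_exp.2 (by push_cast; nlinarith [Real.pi_pos])
  have h3 : ‖nome z ^ 8‖ ≤ ‖nome z‖ ^ 4 := by
    rw [norm_pow]
    exact pow_le_pow_of_le_one (norm_nonneg _) (norm_nome z ▸ Real.exp_le_one_iff.2
      (by nlinarith [Real.pi_pos])) (by norm_num)
  have hc : 0 ≤ 2 / (1 - Real.exp (-π)) := div_nonneg zero_le_two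
    (sub_nonneg.2 (Real.exp_le_one_iff.2 (neg_nonpos.2 Real.pi_pos.le)))
  calc ‖thetaA z - (1 + 2 * nome z ^ 2)‖
      = ‖(jacobiTheta (2 * z) - 1 - 2 * nome z ^ 2 - 2 * nome z ^ 8) + 2 * nome z ^ 8‖ := by
        rw [thetaA]; ring_nf
    _ ≤ 2 / (1 - Real.exp (-π)) * ‖nome z‖ ^ 4 + 2 * ‖nome z‖ ^ 4 := by
        refine (norm_add_le _ _).trans (add_le_add (h.trans ?_) ?_)
        · exact mul_le_mul_of_nonneg_left (norm_nome z ▸ h2) hc
        · rw [norm_mul, Complex.norm_two]; linarith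
    _ = _ := by rw [norm_pow]; ring

theorem cong_thetaB_sq : Cong 5 (fun z => thetaB z ^ 2) fun z => 4 * nome z := by
  set v : ℂ → ℂ := fun z => cexp (π * I * z / 2) with hv
  have hv2 : ∀ z, v z ^ 2 = nome z := fun z => by rw [hv, nome, ← Complex.exp_nat_mul]; ring_nf
  have hnv : ∀ z : ℂ, ‖v z‖ = Real.exp (-(π * z.im / 2)) := fun z => by
    simp [hv, Complex.norm_exp]; ring
  have key : (fun z => thetaB z - 2 * v z) =O[imTop] fun z => v z ^ 9 := by
    refine IsBigO.of_bound (2 / (1 - Real.exp (-π)) * 2 + 2) ?_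
    filter_upwards [eventually_imTop 2] with z hz
    have hz0 : 0 < z.im := by linarith
    have h1 := theta_tail (x := z / 2) (by simp; linarith)
    have h2 := theta_tail (x := 2 * z) (by simp; linarith)
    have e1 : cexp (π * I * (z / 2)) = v z := by rw [hv]; ring_nf
    have e2 : cexp (4 * π * I * (z / 2)) = v z ^ 4 := by rw [hv, ← Complex.exp_nat_mul]; ring_nf
    have e3 : cexp (π * I * (2 * z)) = v z ^ 4 := by rw [hv, ← Complex.exp_nat_mul]; ring_nf
    have e4 : cexp (4 * π * I * (2 * z)) = v z ^ 16 := by rw [hv, ← Complex.exp_nat_mul]; ring_nf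
    rw [e1, e2, show (z / 2).im = z.im / 2 by simp] at h1
    rw [e3, e4, show (2 * z).im = 2 * z.im by simp] at h2
    have hle : ‖v z‖ ≤ 1 := hnv z ▸ Real.exp_le_one_iff.2 (by nlinarith [Real.pi_pos])
    have hc : 0 ≤ 2 / (1 - Real.exp (-π)) := div_nonneg zero_le_two
      (sub_nonneg.2 (Real.exp_le_one_iff.2 (neg_nonpos.2 Real.pi_pos.le)))
    have g1 : Real.exp (-(9 * π * (z.im / 2))) = ‖v z‖ ^ 9 := by
      rw [hnv, ← Real.exp_nat_mul]; ring_nf
    have g2 : Real.exp (-(9 * π * (2 * z.im))) ≤ ‖v z‖ ^ 9 := by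
      rw [← g1]; exact Real.exp_le_exp.2 (by nlinarith [Real.pi_pos])
    have g3 : ‖v z ^ 16‖ ≤ ‖v z‖ ^ 9 := by
      rw [norm_pow]; exact pow_le_pow_of_le_one (norm_nonneg _) hle (by norm_num)
    have hB : thetaB z = jacobiTheta (z / 2) - thetaA z := by
      rw [(theta_split hz0).1, add_sub_cancel_left]
    calc ‖thetaB z - 2 * v z‖ = ‖(jacobiTheta (z / 2) - 1 - 2 * v z - 2 * v z ^ 4) -
          (jacobiTheta (2 * z) - 1 - 2 * v z ^ 4 - 2 * v z ^ 16) - 2 * v z ^ 16‖ := by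
          rw [hB, thetaA]; ring_nf
      _ ≤ 2 / (1 - Real.exp (-π)) * ‖v z‖ ^ 9 + 2 / (1 - Real.exp (-π)) * ‖v z‖ ^ 9 +
          2 * ‖v z‖ ^ 9 := by
          refine (norm_sub_le _ _).trans (add_le_add ((norm_sub_le _ _).trans (add_le_add
            (h1.trans_eq (g1 ▸ rfl)) (h2.trans (mul_le_mul_of_nonneg_left g2 hc)))) ?_)
          rw [norm_mul, Complex.norm_two]; linarith
      _ = _ := by rw [norm_pow]; ring
  have h2 : (fun z => thetaB z + 2 * v z) =O[imTop] v := by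
    have hb : Bd v := .of_tendsto (l := 0) (by
      rw [tendsto_zero_iff_norm_tendsto_zero]
      refine (Real.tendsto_exp_atBot.comp (Tendsto.const_mul_atTop_of_neg
        (f := Complex.im) (hf := tendsto_comap)
        (show -(π / 2) < 0 by linarith [Real.pi_pos]))).congr fun z => ?_
      simp only [Function.comp_apply, hnv]; ring_nf)
    have hvv : (fun z => v z ^ 9) =O[imTop] v := by
      simpa [pow_succ'] using (isBigO_refl v imTop).mul (hb.pow 8)
    exact ((key.trans hvv).add ((isBigO_refl v imTop).const_mul_left 4)).congr_left fun z => by ring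
  refine (key.mul h2).congr (fun z => ?_) fun z => ?_
  · simp only [← hv2]; ring
  · simp only [← hv2]; ring

theorem bd_thetaA_sq : Bd fun z => thetaA z ^ 2 :=
  (cong_thetaA.bd ((bd_const 1).add ((bd_const 2).mul (bd_nome.pow 2)))).pow 2

theorem cong_thetaA_sq : Cong 4 (fun z => thetaA z ^ 2) fun z => 1 + 4 * nome z ^ 2 := by
  have hb := cong_thetaA.bd ((bd_const 1).add ((bd_const 2).mul (bd_nome.pow 2)))
  have h := cong_thetaA.mul cong_thetaA ((bd_const 1).add ((bd_const 2).mul (bd_nome.pow 2))) hb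
  refine (h.trans (cong_of_eq (g := fun z => 1 + 4 * nome z ^ 2) (fun _ => 4) (bd_const 4)
    fun z => ?_)).congr_left fun z => ?_
  · ring
  · ring

theorem cong_two : Cong 5 hA fun z => 16 * (nome z * (1 + 4 * nome z ^ 2)) := by
  have h1 : Cong 5 (fun z => thetaA z ^ 2 * nome z ^ 1)
      fun z => (1 + 4 * nome z ^ 2) * nome z ^ 1 := cong_thetaA_sq.mul_nome 1
  have h2 := (cong_refl 5 fun z => thetaA z ^ 2).mul cong_thetaB_sq bd_thetaA_sq
    (cong_thetaB_sq.bd ((bd_const 4).mul bd_nome))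
  refine (((h2.const_mul 4).trans (?_ : Cong 5 _ fun z =>
    16 * (nome z * (1 + 4 * nome z ^ 2))))).congr_left fun z => by
      simp only [thetaFourthTwo]; ring
  refine (h1.const_mul 16).congr_left fun z => by ring

theorem cong_four : Cong 3 hC fun z => 1 - 8 * nome z + 24 * nome z ^ 2 := by
  have hd : Cong 4 (fun z => thetaA z ^ 2 - thetaB z ^ 2)
      fun z => 1 + 4 * nome z ^ 2 - 4 * nome z :=
    cong_thetaA_sq.sub (cong_thetaB_sq.mono (by norm_num))
  have hb : Bd fun z => 1 + 4 * nome z ^ 2 - 4 * nome z :=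
    ((bd_const 1).add ((bd_const 4).mul (bd_nome.pow 2))).sub ((bd_const 4).mul bd_nome)
  have h := ((hd.mul hd hb (hd.bd hb)).mono (show 3 ≤ 4 by norm_num)).trans
    (cong_of_eq (N := 3) (g := fun z => 1 - 8 * nome z + 24 * nome z ^ 2)
      (fun z => 16 * nome z - 32) (((bd_const 16).mul bd_nome).sub (bd_const 32)) fun z => by ring)
  exact h.congr_left fun z => by simp only [thetaFourthFour]; ring

end FA.Viazovska

end
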