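import Fermat.Agent.Viazovska.Asymp

/-!
# The forms on the imaginary axis

On `τ = i s` the functions `E₂`, `a`, `c` are real, `a, c > 0`, and `d/ds = -2 π D`.
-/

set_option autoImplicit false

noncomputable section

open UpperHalfPlane hiding I
open Complex Filter FA.Gleason FA.Eis FA.Tau
open scoped Real Topology ArithmeticFunction.sigma

namespace FA.Viazovska

local notation "hA" => thetaFourthTwo
local notation "hC" => thetaFourthFour

/-- `a (i s)`. -/
def axTwo (s : ℝ) : ℝ := (hA (s * I)).re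

/-- `c (i s)`. -/
def axFour (s : ℝ) : ℝ := (hC (s * I)).re

/-- `E₂ (i s)`. -/
def axEis (s : ℝ) : ℝ := (eisTwo (s * I)).re

/-- `E₄` in terms of `a`, `c`. -/
def quadR (a c : ℝ) : ℝ := a ^ 2 + a * c + c ^ 2

/-- `E₆` in terms of `a`, `c`. -/
def cubeR (a c : ℝ) : ℝ := (a + 2 * c) * (2 * a + c) * (c - a) / 2

theorem im_axis {s : ℝ} (hs : 0 < s) : 0 < ((s : ℂ) * I).im := by simpa using hs

/-- A series with integral coefficients is real on the axis. -/
theorem hasSum_axis {f : ℍ → ℂ} {A : PowerSeries ℤ}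
    (h : HasQ 1 f (A.map (Int.castRingHom ℂ))) {s : ℝ} (hs : 0 < s) :
    HasSum (fun n : ℕ => ((PowerSeries.coeff n A : ℤ) : ℝ) * Real.exp (-(2 * π * s)) ^ n)
        (f (ofComplex ((s : ℂ) * I))).re ∧ (f (ofComplex ((s : ℂ) * I))).im = 0 := by
  have h1 := h (ofComplex ((s : ℂ) * I))
  have hq : Function.Periodic.qParam (1 : ℝ) ((ofComplex ((s : ℂ) * I) : ℍ) : ℂ) =
      ((Real.exp (-(2 * π * s)) : ℝ) : ℂ) := by
    rw [ofComplex_apply_of_im_pos (im_axis hs), Function.Periodic.qParam, ofReal_exp]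
    congr 1
    push_cast
    linear_combination (2 * π * s) * I_mul_I
  simp only [PowerSeries.coeff_map, eq_intCast, hq] at h1
  refine ⟨(Complex.hasSum_re h1).congr_fun fun n => ?_,
    (Complex.hasSum_im h1).unique (hasSum_zero.congr_fun fun n => ?_)⟩
  · rw [← Complex.ofReal_intCast, ← Complex.ofReal_pow, ← Complex.ofReal_mul, Complex.ofReal_re]
  · rw [← Complex.ofReal_intCast, ← Complex.ofReal_pow, ← Complex.ofReal_mul, Complex.ofReal_im]

theorem axis_real {s : ℝ} (hs : 0 < s) : hA (s * I) = (axTwo s : ℂ) ∧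
    hC (s * I) = (axFour s : ℂ) ∧ eisTwo (s * I) = (axEis s : ℂ) ∧ 0 < axTwo s ∧ 0 < axFour s := by
  obtain ⟨h1, h2⟩ := theta_ray (t := s)
  obtain ⟨ha, hc, -⟩ := thetaFourth_ne_zero (im_axis hs)
  set p := FA.ThetaAGM.thetaThree (2 * s)
  set q := FA.ThetaAGM.thetaTwo (2 * s)
  have eA : hA (s * I) = ((4 * p ^ 2 * q ^ 2 : ℝ) : ℂ) := by
    rw [thetaFourthTwo, h1, h2]; push_cast; ring
  have eC : hC (s * I) = (((p ^ 2 - q ^ 2) ^ 2 : ℝ) : ℂ) := by
    rw [thetaFourthFour, h1, h2]; push_cast; ring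
  have hA' : axTwo s = 4 * p ^ 2 * q ^ 2 := by rw [axTwo, eA, ofReal_re]
  have hC' : axFour s = (p ^ 2 - q ^ 2) ^ 2 := by rw [axFour, eC, ofReal_re]
  refine ⟨hA' ▸ eA, hC' ▸ eC, ?_, lt_of_le_of_ne (hA' ▸ by positivity) fun e => ha ?_,
    lt_of_le_of_ne (hC' ▸ sq_nonneg _) fun e => hc ?_⟩
  · exact Complex.ext (Complex.ofReal_re _).symm
      ((hasSum_axis hasQ_eTwo hs).2.trans (Complex.ofReal_im _).symm)
  · rw [eA, ← hA', ← e, Complex.ofReal_zero]
  · rw [eC, ← hC', ← e, Complex.ofReal_zero]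

theorem hasDerivAt_re_axis {g : ℂ → ℂ} {v : ℂ} {w : ℝ} {s : ℝ}
    (h : HasDerivAt g (2 * π * I * v) (s * I)) (hv : v = (w : ℂ)) :
    HasDerivAt (fun x : ℝ => (g (x * I)).re) (-(2 * π) * w) s := by
  have h1 : HasDerivAt (fun z : ℂ => g (z * I)) (2 * π * I * v * I) (s : ℂ) := by
    exact (h.comp (s : ℂ) ((hasDerivAt_id (s : ℂ)).mul_const I)).congr_deriv (by ring)
  refine h1.real_of_complex.congr_deriv ?_
  rw [hv, show (2 : ℂ) * π * I * w * I = ((-(2 * π) * w : ℝ) : ℂ) by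
    push_cast; linear_combination (2 * π * w : ℂ) * I_mul_I, ofReal_re]

theorem hasDerivAt_axis {s : ℝ} (hs : 0 < s) :
    HasDerivAt axTwo (-(2 * π) * (axTwo s * (axEis s + axTwo s + 2 * axFour s) / 6)) s ∧
    HasDerivAt axFour (-(2 * π) * (axFour s * (axEis s - 2 * axTwo s - axFour s) / 6)) s ∧
    HasDerivAt axEis (-(2 * π) * ((axEis s ^ 2 - quadR (axTwo s) (axFour s)) / 12)) s := by
  obtain ⟨ea, ec, ee, -, -⟩ := axis_real hs
  obtain ⟨d1, d2⟩ := hasDerivAt_thetaFourth (im_axis hs)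
  refine ⟨hasDerivAt_re_axis d1 ?_, hasDerivAt_re_axis d2 ?_,
    hasDerivAt_re_axis (hasDerivAt_eisTwo (im_axis hs)) ?_⟩ <;>
    simp only [ea, ec, ee, quadPoly, quadR] <;> push_cast <;> rfl

/-- `D E₂ < 0` on the axis. -/
theorem eisTwo_deriv_neg {s : ℝ} (hs : 0 < s) :
    axEis s ^ 2 < quadR (axTwo s) (axFour s) := by
  obtain ⟨h, -⟩ := hasSum_axis (hasQ_deriv hasQ_eTwo) hs
  obtain ⟨ea, ec, ee, -, -⟩ := axis_real hs
  have hval : (Derivative.normalizedDerivOfComplex EisensteinSeries.E2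
      (ofComplex ((s : ℂ) * I))).re = (axEis s ^ 2 - quadR (axTwo s) (axFour s)) / 12 := by
    rw [FA.Summary.ramanujan_derivative_eTwo, eFour_eq, ofComplex_apply_of_im_pos (im_axis hs)]
    have hee : EisensteinSeries.E2 ⟨(s : ℂ) * I, im_axis hs⟩ = (axEis s : ℂ) := by
      rw [← ee, eisTwo, ofComplex_apply_of_im_pos (im_axis hs)]
    simp only [hee, ea, ec, quadPoly, quadR]
    norm_cast
  rw [hval] at h
  have hco : ∀ n : ℕ, ((PowerSeries.coeff n (thetaInt eTwoInt) : ℤ) : ℝ) ≤ 0 := fun n => by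
    rw [thetaInt, eTwoInt, PowerSeries.coeff_mk, PowerSeries.coeff_mk]
    rcases Nat.eq_zero_or_pos n with rfl | hn
    · simp
    rw [if_neg hn.ne']
    exact_mod_cast mul_nonpos_of_nonneg_of_nonpos (Int.natCast_nonneg n) (by
      have := Int.natCast_nonneg (σ 1 n); omega)
  have hlt := hasSum_lt (i := 1) (fun n => mul_nonpos_of_nonpos_of_nonneg (hco n)
    (pow_nonneg (Real.exp_pos _).le n)) ?_ h hasSum_zero
  · linarith
  · refine mul_neg_of_neg_of_pos ?_ (pow_pos (Real.exp_pos _) 1)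
    rw [thetaInt, eTwoInt, PowerSeries.coeff_mk, PowerSeries.coeff_mk]
    norm_num

/-- The ray tends to `∞`. -/
theorem tendsto_axis : Tendsto (fun s : ℝ => (s : ℂ) * I) atTop imTop := by
  rw [imTop, tendsto_comap_iff]
  exact tendsto_id.congr fun s => by simp

/-- The quotient by `q` of a series without constant term. -/
theorem tendsto_div_qParam {f : ℍ → ℂ} {A : PowerSeries ℤ}
    (h : HasQ 1 f (A.map (Int.castRingHom ℂ))) (h0 : PowerSeries.coeff 0 A = 0) :
    Tendsto (fun s : ℝ => (f (ofComplex ((s : ℂ) * I))).re / Real.exp (-(2 * π * s))) atTop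
      (𝓝 ((PowerSeries.coeff 1 A : ℤ) : ℝ)) := by
  set B : PowerSeries ℂ := PowerSeries.mk fun n => ((PowerSeries.coeff (n + 1) A : ℤ) : ℂ)
  have hB : HasQ 1 (fun z => f z / Function.Periodic.qParam (1 : ℝ) (z : ℂ)) B := fun z => by
    have hz := ((hasSum_nat_add_iff' 1).2 (h z)).div_const
      (Function.Periodic.qParam (1 : ℝ) (z : ℂ))
    rw [Finset.sum_range_one, PowerSeries.coeff_map, h0, map_zero, zero_mul, sub_zero] at hz
    refine hz.congr_fun fun n => ?_
    rw [PowerSeries.coeff_mk, PowerSeries.coeff_map, eq_intCast, pow_succ, ← mul_assoc,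
      mul_div_cancel_right₀ _ (Function.Periodic.qParam_ne_zero _)]
  have hmap : Tendsto (fun s : ℝ => ofComplex ((s : ℂ) * I)) atTop atImInfty := by
    rw [atImInfty, tendsto_comap_iff]
    refine tendsto_id.congr' ((eventually_gt_atTop (0 : ℝ)).mono fun s hs => ?_)
    simp [ofComplex_apply_of_im_pos (im_axis hs), UpperHalfPlane.im]
  have h2 := (Complex.continuous_re.tendsto _).comp ((hB.tendsto one_pos).comp hmap)
  rw [show (PowerSeries.coeff 0 B).re = ((PowerSeries.coeff 1 A : ℤ) : ℝ) by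
    rw [PowerSeries.coeff_mk, Complex.intCast_re]] at h2
  refine h2.congr' ((eventually_gt_atTop (0 : ℝ)).mono fun s hs => ?_)
  simp only [Function.comp_apply, ofComplex_apply_of_im_pos (im_axis hs),
    Function.Periodic.qParam]
  rw [show cexp (2 * π * I * ((s : ℂ) * I) / ((1 : ℝ) : ℂ)) = ((Real.exp (-(2 * π * s)) : ℝ) : ℂ) by
    rw [ofReal_exp]; congr 1; push_cast; linear_combination (2 * π * s) * I_mul_I,
    Complex.div_ofReal_re]

end FA.Viazovska

end
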