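import Fermat.Agent.Viazovska.Asymp
import Fermat.Agent.Viazovska.MagicFormula

/-!
# The two kernels

`Ψ₊ = (E₂ E₄ - E₆)² / Δ` and `Ψ₋ = -a³ (2 a² + 5 a c + 5 c²) / (2 Δ)` are kernels for `ε = ± 1`;
their duals are `z² φ₀ - 12 i / π · z φ₋₂ - 36 / π² · φ₋₄` and Viazovska's `ψ_I`.
-/

set_option autoImplicit false

noncomputable section

open UpperHalfPlane hiding I
open Complex Filter Asymptotics FA.Gleason FA.Eis FA.Tau
open scoped Real Topology MatrixGroups

namespace FA.Viazovska

local notation "hA" => thetaFourthTwo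
local notation "hC" => thetaFourthFour

/-- `E₂ E₄ - E₆`. -/
def uForm (z : ℂ) : ℂ := eisTwo z * quadPoly (hA z) (hC z) - cubePoly (hA z) (hC z)

/-- The discriminant. -/
def discForm (z : ℂ) : ℂ := (hA z * hC z * (hA z + hC z)) ^ 2 / 256

/-- `φ₀`. -/
def kerPlus (z : ℂ) : ℂ := uForm z ^ 2 / discForm z

/-- The kernel for `ε = -1`. -/
def kerMinus (z : ℂ) : ℂ :=
  -(hA z ^ 3 * (2 * hA z ^ 2 + 5 * hA z * hC z + 5 * hC z ^ 2)) / (2 * discForm z)

/-- `φ₋₂`. -/
def phiTwo (z : ℂ) : ℂ := quadPoly (hA z) (hC z) * uForm z / discForm z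

/-- `φ₋₄`. -/
def phiFour (z : ℂ) : ℂ := quadPoly (hA z) (hC z) ^ 2 / discForm z

/-- `ψ_I`. -/
def psiInv (z : ℂ) : ℂ :=
  hC z ^ 3 * (2 * hC z ^ 2 + 5 * hA z * hC z + 5 * hA z ^ 2) / (2 * discForm z)

theorem discForm_ne_zero {z : ℂ} (hz : 0 < z.im) : discForm z ≠ 0 := by
  obtain ⟨h1, h2, h3⟩ := thetaFourth_ne_zero hz
  simp [discForm, h1, h2, h3]

theorem eisTwo_add_one (z : ℂ) : eisTwo (z + 1) = eisTwo z := by
  simpa [eisTwo] using hasQ_eTwo.periodic one_pos z

theorem eisTwo_inversion {z : ℂ} (hz : 0 < z.im) :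
    eisTwo (-1 / z) = z ^ 2 * eisTwo z - 6 * I * z / π := by
  set w : ℍ := ⟨z, hz⟩
  have hw : (w : ℂ) ≠ 0 := UpperHalfPlane.ne_zero w
  have h := congrFun (EisensteinSeries.E2_slash_action ModularGroup.S) w
  rw [ModularForm.SL_slash_apply, ModularGroup.denom_S, Pi.sub_apply, Pi.smul_apply,
    EisensteinSeries.D2_S, riemannZeta_two, smul_eq_mul, zpow_neg, zpow_two] at h
  have hS : ofComplex (-1 / z) = ModularGroup.S • w := by
    apply UpperHalfPlane.ext
    rw [ofComplex_apply_of_im_pos (neg_one_div_im hz), UpperHalfPlane.modular_S_smul]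
    show -1 / z = (-(w : ℂ))⁻¹
    rw [inv_neg, neg_div, one_div]
  rw [eisTwo, eisTwo, hS, ofComplex_apply_of_im_pos hz]
  have hπ : (π : ℂ) ≠ 0 := ofReal_ne_zero.2 Real.pi_ne_zero
  show _ = z ^ 2 * EisensteinSeries.E2 w - 6 * I * z / π
  have hwz : (w : ℂ) = z := rfl
  rw [hwz] at h hw
  field_simp at h ⊢
  linear_combination h

theorem differentiableAt_forms {z : ℂ} (hz : 0 < z.im) :
    DifferentiableAt ℂ uForm z ∧ DifferentiableAt ℂ discForm z := by
  obtain ⟨ha, hc⟩ := differentiableAt_thetaFourth hz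
  refine ⟨((hasDerivAt_eisTwo hz).differentiableAt.mul (((ha.pow 2).add (ha.mul hc)).add
    (hc.pow 2))).sub ?_, (((ha.mul hc).mul (ha.add hc)).pow 2).div_const 256⟩
  exact (((ha.add (hc.const_mul 2)).mul ((ha.const_mul 2).add hc)).mul (hc.sub ha)).div_const 2

theorem forms_add_one (z : ℂ) :
    uForm (z + 1) = uForm z ∧ discForm (z + 1) = discForm z ∧
      quadPoly (hA (z + 1)) (hC (z + 1)) = quadPoly (hA z) (hC z) := by
  obtain ⟨h1, h2⟩ := thetaFourth_add_one z
  refine ⟨?_, ?_, ?_⟩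
  · rw [uForm, uForm, eisTwo_add_one, h1, h2, isSym_quadPoly.turn, isSym_cubePoly.turn]
  · rw [discForm, discForm, h1, h2]; ring
  · rw [h1, h2, isSym_quadPoly.turn]

theorem phi_sub_one (z : ℂ) :
    kerPlus (z - 1) = kerPlus z ∧ phiTwo (z - 1) = phiTwo z ∧ phiFour (z - 1) = phiFour z := by
  obtain ⟨h1, h2, h3⟩ := forms_add_one (z - 1)
  rw [sub_add_cancel] at h1 h2 h3
  simp only [kerPlus, phiTwo, phiFour, h1, h2, h3, and_self]

theorem dualKernel_plus {z : ℂ} (hz : 0 < z.im) : dualKernel kerPlus z =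
    z ^ 2 * kerPlus z - 12 * I / π * z * phiTwo z - 36 / (π : ℂ) ^ 2 * phiFour z := by
  obtain ⟨i1, i2⟩ := thetaFourth_inversion hz
  have h0 : z ≠ 0 := fun e => by simp [e] at hz
  have hπ : (π : ℂ) ≠ 0 := ofReal_ne_zero.2 Real.pi_ne_zero
  have hd := discForm_ne_zero hz
  have eu : uForm (-1 / z) = z ^ 6 * uForm z - 6 * I * z ^ 5 / π * quadPoly (hA z) (hC z) := by
    rw [uForm, eisTwo_inversion hz, i1, i2, isSym_quadPoly.swap, isSym_cubePoly.swap, uForm]
    ring
  have ed : discForm (-1 / z) = z ^ 12 * discForm z := by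
    rw [discForm, discForm, i1, i2]; ring
  rw [dualKernel, kerPlus, kerPlus, phiTwo, phiFour, eu, ed]
  field_simp
  linear_combination (36 * quadPoly (hA z) (hC z) ^ 2) * I_sq

theorem dualKernel_minus {z : ℂ} (hz : 0 < z.im) : dualKernel kerMinus z = psiInv z := by
  obtain ⟨i1, i2⟩ := thetaFourth_inversion hz
  have h0 : z ≠ 0 := fun e => by simp [e] at hz
  have hd := discForm_ne_zero hz
  have ed : discForm (-1 / z) = z ^ 12 * discForm z := by
    rw [discForm, discForm, i1, i2]; ring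
  rw [dualKernel, kerMinus, psiInv, ed, i1, i2]
  field_simp

/-! ### Expansions -/

/-- Congruence modulo `w³` to something bounded. -/
structure Approx (f g : ℂ → ℂ) : Prop where
  cong : Cong 3 f g
  bdd : Bd g

theorem Approx.add {f f' g g' : ℂ → ℂ} (h1 : Approx f f') (h2 : Approx g g') :
    Approx (fun z => f z + g z) fun z => f' z + g' z :=
  ⟨h1.cong.add h2.cong, h1.bdd.add h2.bdd⟩

theorem Approx.sub {f f' g g' : ℂ → ℂ} (h1 : Approx f f') (h2 : Approx g g') :
    Approx (fun z => f z - g z) fun z => f' z - g' z :=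
  ⟨h1.cong.sub h2.cong, h1.bdd.sub h2.bdd⟩

theorem Approx.mul {f f' g g' : ℂ → ℂ} (h1 : Approx f f') (h2 : Approx g g') :
    Approx (fun z => f z * g z) fun z => f' z * g' z :=
  ⟨h1.cong.mul h2.cong h1.bdd (h2.cong.bd h2.bdd), h1.bdd.mul h2.bdd⟩

theorem Approx.const_mul {f f' : ℂ → ℂ} (h : Approx f f') (c : ℂ) :
    Approx (fun z => c * f z) fun z => c * f' z :=
  ⟨h.cong.const_mul c, (bd_const c).mul h.bdd⟩

theorem Approx.reduce {f g : ℂ → ℂ} (h : Approx f g) (g' : ℂ → ℂ) (hg' : Bd g') (r : ℂ → ℂ)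
    (hr : Bd r) (he : ∀ z, g z - g' z = nome z ^ 3 * r z) : Approx f g' :=
  ⟨h.cong.trans (cong_of_eq r hr he), hg'⟩

theorem approx_refl {f : ℂ → ℂ} (hf : Bd f) : Approx f f := ⟨cong_refl 3 f, hf⟩

theorem Approx.congr {f f' g : ℂ → ℂ} (h : Approx f g) (he : ∀ z, f z = f' z) : Approx f' g :=
  (funext he : f = f') ▸ h

theorem Bd.poly (a b c : ℂ) : Bd fun z => a + b * nome z + c * nome z ^ 2 :=
  ((bd_const a).add ((bd_const b).mul bd_nome)).add ((bd_const c).mul (bd_nome.pow 2))

theorem approx_two : Approx hA fun z => 0 + 16 * nome z + 0 * nome z ^ 2 :=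
  ⟨(cong_two.mono (by norm_num)).trans (cong_of_eq (fun _ => 64) (bd_const 64) fun z => by ring),
    Bd.poly _ _ _⟩

theorem approx_four : Approx hC fun z => 1 + (-8) * nome z + 24 * nome z ^ 2 :=
  ⟨cong_four.trans (cong_of_eq (fun _ => 0) (bd_const 0) fun z => by ring), Bd.poly _ _ _⟩

theorem nome_sq (z : ℂ) : nome z ^ 2 = cexp (2 * π * I * z) := by
  rw [nome, ← Complex.exp_nat_mul]; ring_nf

theorem tendsto_ofComplex_imTop : Tendsto ofComplex imTop atImInfty := by
  rw [atImInfty, tendsto_comap_iff]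
  refine Tendsto.congr' ?_ (tendsto_comap (f := Complex.im))
  filter_upwards [eventually_imTop 1] with z hz
  simp [ofComplex_apply_of_im_pos (show 0 < z.im by linarith), UpperHalfPlane.im]

theorem approx_eisTwo : Approx eisTwo fun z => 1 + 0 * nome z + (-24) * nome z ^ 2 := by
  refine ⟨?_, Bd.poly _ _ _⟩
  have h := ((hasQ_eTwo.hasFPowerSeriesOnBall one_pos).hasFPowerSeriesAt.isBigO_sub_partialSum_pow
    2).comp_tendsto ((qParam_tendsto_atImInfty one_pos).comp tendsto_ofComplex_imTop)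
  have h2 : (fun z => eisTwo z - (1 + 0 * nome z + (-24) * nome z ^ 2)) =O[imTop]
      fun z => nome z ^ 4 := by
    refine (h.trans ?_).congr' ?_ EventuallyEq.rfl
    · refine IsBigO.of_bound 1 ((eventually_imTop 1).mono fun z hz => ?_)
      simp only [Function.comp_apply, ofComplex_apply_of_im_pos (show 0 < z.im by linarith),
        Function.Periodic.qParam, Complex.ofReal_one, div_one, ← nome_sq, norm_pow,
        Real.norm_eq_abs,
        abs_norm, one_mul]
      rw [← pow_mul]
    · filter_upwards [eventually_imTop 1] with z hz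
      simp only [Function.comp_apply, zero_add]
      rw [← hasQ_eTwo.eq_seriesFun]
      simp only [eisTwo, ofComplex_apply_of_im_pos (show 0 < z.im by linarith),
        FormalMultilinearSeries.partialSum,
        Finset.sum_range_succ, Finset.sum_range_zero, FormalMultilinearSeries.ofScalars_apply_eq,
        PowerSeries.coeff_map, eTwoInt, PowerSeries.coeff_mk, Function.Periodic.qParam,
        Complex.ofReal_one, div_one, ← nome_sq]
      norm_num
  exact (Cong.mono (N := 4) h2 (by norm_num))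

theorem approx_quadPoly :
    Approx (fun z => quadPoly (hA z) (hC z)) fun z => 1 + 0 * nome z + 240 * nome z ^ 2 := by
  refine (((approx_two.mul approx_two).add (approx_two.mul approx_four)).add
    (approx_four.mul approx_four)).reduce _ (Bd.poly _ _ _) (fun z => 0 + 0 * nome z +
      0 * nome z ^ 2 + (0 : ℂ) + (16 * 24 - 384) + 576 * nome z) (((((bd_const 0).add
      ((bd_const 0).mul bd_nome)).add ((bd_const 0).mul (bd_nome.pow 2))).add (bd_const 0)).add
        (bd_const _) |>.add ((bd_const 576).mul bd_nome)) (fun z => ?_) |>.congr fun z => ?_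
  · ring
  · simp only [quadPoly]; ring

theorem approx_cubePoly :
    Approx (fun z => cubePoly (hA z) (hC z)) fun z => 1 + 0 * nome z + (-504) * nome z ^ 2 := by
  have h1 : Approx (fun z => hA z + 2 * hC z) fun z => 2 + 0 * nome z + 48 * nome z ^ 2 :=
    (approx_two.add (approx_four.const_mul 2)).reduce _ (Bd.poly _ _ _) (fun _ => 0) (bd_const 0)
      fun z => by ring
  have h2 : Approx (fun z => (2 * hA z + hC z) * (hC z - hA z))
      fun z => 1 + 0 * nome z + (-528) * nome z ^ 2 :=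
    (((approx_two.const_mul 2).add approx_four).mul (approx_four.sub approx_two)).reduce _
      (Bd.poly _ _ _) (fun z => 576 * nome z) ((bd_const 576).mul bd_nome) fun z => by ring
  refine (((h1.mul h2).const_mul (1 / 2)).reduce _ (Bd.poly _ _ _)
    (fun z => -12672 * nome z) ((bd_const _).mul bd_nome) fun z => ?_).congr fun z => ?_
  · ring
  · simp only [cubePoly]; ring

theorem approx_uForm : Approx uForm fun z => 0 + 0 * nome z + 720 * nome z ^ 2 :=
  (((approx_eisTwo.mul approx_quadPoly).sub approx_cubePoly).reduce _ (Bd.poly _ _ _)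
    (fun z => -5760 * nome z) ((bd_const _).mul bd_nome) fun z => by ring).congr fun _ => rfl

theorem approx_discForm :
    Approx (fun z => discForm z / nome z ^ 2) fun z => 1 + 0 * nome z + (-24) * nome z ^ 2 := by
  have h1 : Approx (fun z => hA z / nome z) fun z => 16 + 0 * nome z + 64 * nome z ^ 2 := by
    refine ⟨(Cong.mono (N := 4) ?_ (by norm_num)), Bd.poly _ _ _⟩
    refine (IsBigO.mul cong_two (isBigO_refl (fun z => (nome z)⁻¹) imTop)).congr
      (fun z => ?_) fun z => ?_
    · field_simp [nome_ne_zero z]; ring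
    · field_simp [nome_ne_zero z]
  have h2 : Approx (fun z => hC z * (hA z + hC z)) fun z => 1 + 0 * nome z + (-16) * nome z ^ 2 :=
    (approx_four.mul (approx_two.add approx_four)).reduce _ (Bd.poly _ _ _)
      (fun z => 576 * nome z) ((bd_const 576).mul bd_nome) fun z => by ring
  have h3 : Approx (fun z => hA z / nome z * (hC z * (hA z + hC z)))
      fun z => 16 + 0 * nome z + (-192) * nome z ^ 2 :=
    (h1.mul h2).reduce _ (Bd.poly _ _ _) (fun z => -1024 * nome z) ((bd_const _).mul bd_nome)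
      fun z => by ring
  refine (((h3.mul h3).const_mul (1 / 256)).reduce _ (Bd.poly _ _ _) (fun z => 144 * nome z)
    ((bd_const _).mul bd_nome) fun z => ?_).congr fun z => ?_
  · ring
  · simp only [discForm]; field_simp [nome_ne_zero z]

theorem isBigO_div_disc {f : ℂ → ℂ} (h : Cong 3 f fun _ => 0) :
    (fun z => f z / discForm z) =O[imTop] nome := by
  have h1 : Tendsto (fun z => (discForm z / nome z ^ 2)⁻¹) imTop (𝓝 1⁻¹) := by
    refine (approx_discForm.cong.tendsto (by norm_num) ?_).inv₀ one_ne_zero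
    simpa using ((tendsto_nome.const_mul 0).const_add 1).add ((tendsto_nome.pow 2).const_mul (-24))
  have h2 : (fun z => f z / nome z ^ 2) =O[imTop] nome := by
    refine (IsBigO.mul h (isBigO_refl (fun z => (nome z ^ 2)⁻¹) imTop)).congr (fun z => ?_)
      fun z => ?_
    · simp [div_eq_mul_inv]
    · field_simp [nome_ne_zero z]
  refine (h2.mul (h1.isBigO_one ℂ)).congr (fun z => ?_) fun z => mul_one _
  rw [inv_div, div_mul_div_cancel₀ (pow_ne_zero _ (nome_ne_zero z))]

theorem isBigO_kernels :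
    kerPlus =O[imTop] nome ∧ kerMinus =O[imTop] nome ∧
      (fun z => phiTwo z - 720) =O[imTop] nome ∧
      (fun z => phiFour z - ((nome z ^ 2)⁻¹ + 504)) =O[imTop] nome ∧
      (fun z => psiInv z - ((nome z ^ 2)⁻¹ + 144)) =O[imTop] nome := by
  have hd : ∀ᶠ z in imTop, discForm z ≠ 0 :=
    (eventually_imTop 1).mono fun z hz => discForm_ne_zero (by linarith)
  have hD := approx_discForm
  refine ⟨?_, ?_, ?_, ?_, ?_⟩
  · exact isBigO_div_disc (f := fun z => uForm z ^ 2)
      (((approx_uForm.mul approx_uForm).reduce (fun _ => 0) (bd_const 0) (fun z => 518400 * nome z)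
        ((bd_const _).mul bd_nome) fun z => by ring).congr fun z => (sq _).symm).cong
  · have h := isBigO_div_disc
      (f := fun z => -(1 / 2) * (hA z * (hA z * hA z) * (2 * (hA z * hA z) + 5 * (hA z * hC z) +
        5 * (hC z * hC z))))
      (((approx_two.mul (approx_two.mul approx_two)).mul ((((approx_two.mul approx_two).const_mul
        2).add ((approx_two.mul approx_four).const_mul 5)).add
          ((approx_four.mul approx_four).const_mul 5))).const_mul (-(1 / 2)) |>.reduce (fun _ => 0)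
        (bd_const 0) (fun z => -2048 * (5 + 0 * nome z + (5 * 240 + (-3) * 256) * nome z ^ 2 +
          (-5 * 384 + 5 * 16 * 24) * nome z ^ 3 + 2880 * nome z ^ 4))
        ((bd_const _).mul (((Bd.poly _ _ _).add ((bd_const _).mul (bd_nome.pow 3))).add
          ((bd_const _).mul (bd_nome.pow 4)))) fun z => by ring).cong
    refine h.congr_left fun z => ?_
    simp only [kerMinus]; ring
  · refine IsBigO.congr' (isBigO_div_disc (f := fun z => quadPoly (hA z) (hC z) * uForm z -
      (0 + 0 * nome z + 720 * nome z ^ 2) * (discForm z / nome z ^ 2)) (((approx_quadPoly.mul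
        approx_uForm).sub ((approx_refl (Bd.poly 0 0 720)).mul hD)).reduce (fun _ => 0)
        (bd_const 0) (fun z => 190080 * nome z) ((bd_const _).mul bd_nome) fun z => by ring).cong)
      (hd.mono fun z hz => ?_) EventuallyEq.rfl
    simp only [phiTwo]; field_simp [nome_ne_zero z]; ring
  · refine IsBigO.congr' (isBigO_div_disc (f := fun z =>
      quadPoly (hA z) (hC z) * quadPoly (hA z) (hC z) -
      (1 + 0 * nome z + 504 * nome z ^ 2) * (discForm z / nome z ^ 2)) (((approx_quadPoly.mul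
        approx_quadPoly).sub ((approx_refl (Bd.poly 1 0 504)).mul hD)).reduce (fun _ => 0)
        (bd_const 0) (fun z => 69696 * nome z) ((bd_const _).mul bd_nome) fun z => by ring).cong)
      (hd.mono fun z hz => ?_) EventuallyEq.rfl
    simp only [phiFour]; field_simp [nome_ne_zero z]; ring
  · have hN : Approx (fun z => (1 / 2) * (hC z * (hC z * hC z) * (2 * (hC z * hC z) +
        5 * (hA z * hC z) + 5 * (hA z * hA z)))) fun z => 1 + 0 * nome z + 120 * nome z ^ 2 := by
      have h3 : Approx (fun z => hC z * (hC z * hC z))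
          fun z => 1 + (-24) * nome z + 264 * nome z ^ 2 :=
        (approx_four.mul (approx_four.mul approx_four)).reduce _ (Bd.poly _ _ _)
          (fun z => (-1664) + 6336 * nome z - 13824 * nome z ^ 2 + 13824 * nome z ^ 3)
          ((((bd_const _).add ((bd_const _).mul bd_nome)).sub ((bd_const _).mul
            (bd_nome.pow 2))).add ((bd_const _).mul (bd_nome.pow 3))) fun z => by ring
      have h4 : Approx (fun z => 2 * (hC z * hC z) + 5 * (hA z * hC z) + 5 * (hA z * hA z))
          fun z => 2 + 48 * nome z + 864 * nome z ^ 2 :=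
        ((((approx_four.mul approx_four).const_mul 2).add ((approx_two.mul approx_four).const_mul
          5)).add ((approx_two.mul approx_two).const_mul 5)).reduce _ (Bd.poly _ _ _)
          (fun z => 1152 + 1152 * nome z) ((bd_const _).add ((bd_const _).mul bd_nome))
          fun z => by ring
      exact ((h3.mul h4).const_mul (1 / 2)).reduce _ (Bd.poly _ _ _)
        (fun z => -4032 + 114048 * nome z) ((bd_const _).add ((bd_const _).mul bd_nome))
        fun z => by ring
    refine IsBigO.congr' (isBigO_div_disc (f := fun z => (1 / 2) * (hC z * (hC z * hC z) *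
      (2 * (hC z * hC z) + 5 * (hA z * hC z) + 5 * (hA z * hA z))) -
      (1 + 0 * nome z + 144 * nome z ^ 2) * (discForm z / nome z ^ 2))
        ((hN.sub ((approx_refl (Bd.poly 1 0 144)).mul hD)).reduce (fun _ => 0)
        (bd_const 0) (fun z => 3456 * nome z) ((bd_const _).mul bd_nome) fun z => by ring).cong)
      (hd.mono fun z hz => ?_) EventuallyEq.rfl
    simp only [psiInv]; field_simp [nome_ne_zero z]; ring

theorem exists_strip_bound {f : ℂ → ℂ} {y₁ : ℝ} (hy₁ : 0 < y₁)
    (hf : ∀ z : ℂ, 0 < z.im → ContinuousAt f z) (h : f =O[imTop] nome) :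
    ∃ C, ∀ z : ℂ, y₁ ≤ z.im → |z.re| ≤ 1 → ‖f z‖ ≤ C * Real.exp (-π * z.im) := by
  obtain ⟨C, hB⟩ := h.bound
  rw [imTop, eventually_comap] at hB
  obtain ⟨Y, hY⟩ := eventually_atTop.1 hB
  have hK : IsCompact (Set.Icc (-1 : ℝ) 1 ×ℂ Set.Icc y₁ Y) := isCompact_Icc.reProdIm isCompact_Icc
  obtain ⟨M, hM⟩ := hK.exists_bound_of_continuousOn (f := fun z => f z / nome z) fun z hz =>
    ((hf z (hy₁.trans_le hz.2.1)).div (by unfold nome; fun_prop)
      (nome_ne_zero z)).continuousWithinAt
  refine ⟨max C M, fun z hz hr => ?_⟩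
  rw [neg_mul, ← norm_nome]
  rcases le_total Y z.im with hY' | hY'
  · exact (hY _ hY' z rfl).trans (mul_le_mul_of_nonneg_right (le_max_left _ _) (norm_nonneg _))
  · have := hM z ⟨⟨(abs_le.1 hr).1, (abs_le.1 hr).2⟩, hz, hY'⟩
    rw [norm_div, div_le_iff₀ (norm_pos_iff.2 (nome_ne_zero z))] at this
    exact this.trans (mul_le_mul_of_nonneg_right (le_max_right _ _) (norm_nonneg _))

theorem differentiableAt_kernels {z : ℂ} (hz : 0 < z.im) :
    DifferentiableAt ℂ kerPlus z ∧ DifferentiableAt ℂ kerMinus z := by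
  obtain ⟨ha, hc⟩ := differentiableAt_thetaFourth hz
  obtain ⟨hu, hd⟩ := differentiableAt_forms hz
  exact ⟨(hu.pow 2).div hd (discForm_ne_zero hz),
    (((ha.pow 3).mul ((((ha.pow 2).const_mul 2).add ((ha.const_mul 5).mul hc)).add
      ((hc.pow 2).const_mul 5))).neg).div (hd.const_mul 2)
        (mul_ne_zero two_ne_zero (discForm_ne_zero hz))⟩

theorem small_of_shift {ε : ℂ} {Ψ : ℂ → ℂ} (hε : ‖ε‖ = 1)
    (hd : ∀ z : ℂ, 0 < z.im → ContinuousAt Ψ z) (hs : ∀ z : ℂ, 0 < z.im → Ψ (z + 1) = ε * Ψ z)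
    (hO : Ψ =O[imTop] nome) :
    ∃ C, ∀ z : ℂ, 1 / 2 ≤ z.im → ‖Ψ z‖ ≤ C * Real.exp (-π * z.im) := by
  obtain ⟨C, hB⟩ := exists_strip_bound one_half_pos hd hO
  refine ⟨C, fun z hz => ?_⟩
  set g : ℂ → ℝ := fun z => if 0 < z.im then ‖Ψ z‖ else 0 with hg
  have hper : Function.Periodic g 1 := fun w => by
    simp only [hg, Complex.add_im, Complex.one_im, add_zero]
    split_ifs with hw
    · rw [hs w hw, norm_mul, hε, one_mul]
    · rfl
  have hw := hB (z - ⌊z.re⌋) (by simpa using hz) (by
    simp only [Complex.sub_re, Complex.intCast_re]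
    rw [abs_le]
    constructor <;> linarith [Int.floor_le z.re, Int.lt_floor_add_one z.re])
  have he := hper.sub_int_mul_eq ⌊z.re⌋ (x := z)
  simp only [hg, mul_one, Complex.sub_im, Complex.intCast_im, sub_zero,
    if_pos (show 0 < z.im by linarith)] at he
  simpa [he] using hw

theorem isMagic_plus : IsMagic 1 kerPlus := by
  refine ⟨one_pow 2, fun z hz => (differentiableAt_kernels hz).1, fun z _ => ?_, ?_⟩
  · obtain ⟨h1, h2, -⟩ := forms_add_one z
    rw [kerPlus, kerPlus, h1, h2, one_mul]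
  · exact small_of_shift (ε := 1) norm_one
      (fun z hz => (differentiableAt_kernels hz).1.continuousAt)
      (fun z _ => by obtain ⟨h1, h2, -⟩ := forms_add_one z; rw [kerPlus, kerPlus, h1, h2, one_mul])
      isBigO_kernels.1

theorem kerMinus_add_one (z : ℂ) : kerMinus (z + 1) = -1 * kerMinus z := by
  obtain ⟨h1, h2⟩ := thetaFourth_add_one z
  rw [kerMinus, kerMinus, (forms_add_one z).2.1, h1, h2]
  ring

theorem isMagic_minus : IsMagic (-1) kerMinus :=
  ⟨by norm_num, fun z hz => (differentiableAt_kernels hz).2, fun z _ => kerMinus_add_one z,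
    small_of_shift (by simp) (fun z hz => (differentiableAt_kernels hz).2.continuousAt)
      (fun z _ => kerMinus_add_one z) isBigO_kernels.2.1⟩

theorem pow_mul_exp_le (k : ℕ) (y : ℝ) (hy : 0 ≤ y) :
    y ^ k * Real.exp (-π * y) ≤ k.factorial / (π / 2) ^ k * Real.exp (-(π / 2) * y) := by
  have h := Real.pow_div_factorial_le_exp (π / 2 * y) (by positivity) k
  rw [mul_pow, div_le_iff₀ (by positivity)] at h
  rw [div_mul_eq_mul_div, le_div_iff₀ (by positivity),
    show -(π / 2) * y = π / 2 * y + -π * y by ring, Real.exp_add]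
  have := mul_le_mul_of_nonneg_right h (Real.exp_pos (-π * y)).le
  linarith

theorem hasExpansion_plus : HasExpansion 1 kerPlus (-(36 / (π : ℂ) ^ 2)) (-(8640 * I / π))
    (-(18144 / (π : ℂ) ^ 2)) := by
  refine ⟨fun z hz => ?_, ?_⟩
  · have hz1 : 0 < (z + 1).im := by simpa using hz
    have hz2 : 0 < (z - 1).im := by simpa using hz
    obtain ⟨a1, a2, a3⟩ := phi_sub_one (z + 1)
    obtain ⟨b1, b2, b3⟩ := phi_sub_one z
    rw [add_sub_cancel_right] at a1 a2 a3
    rw [dualKernel_plus hz, dualKernel_plus hz1, dualKernel_plus hz2, ← a1, ← a2, ← a3, b1, b2, b3]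
    ring
  · obtain ⟨hP, -, hT, hF, -⟩ := isBigO_kernels
    have hc : ∀ z : ℂ, 0 < z.im → ContinuousAt (fun z => phiTwo z - 720) z ∧
        ContinuousAt (fun z => phiFour z - ((nome z ^ 2)⁻¹ + 504)) z := fun z hz => by
      obtain ⟨ha, hc⟩ := differentiableAt_thetaFourth hz
      obtain ⟨hu, hd⟩ := differentiableAt_forms hz
      have hq := (((ha.pow 2).add (ha.mul hc)).add (hc.pow 2))
      exact ⟨(((hq.mul hu).div hd (discForm_ne_zero hz)).sub_const 720).continuousAt,
        (((hq.pow 2).div hd (discForm_ne_zero hz)).continuousAt).sub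
          ((((by unfold nome; fun_prop : ContinuousAt nome z).pow 2).inv₀
            (pow_ne_zero _ (nome_ne_zero z))).add continuousAt_const)⟩
    obtain ⟨C0, h0⟩ := exists_strip_bound one_pos
      (fun z hz => (differentiableAt_kernels hz).1.continuousAt) hP
    obtain ⟨C2, h2⟩ := exists_strip_bound one_pos (fun z hz => (hc z hz).1) hT
    obtain ⟨C4, h4⟩ := exists_strip_bound one_pos (fun z hz => (hc z hz).2) hF
    refine ⟨4 * |C0| * (Nat.factorial 2 / (π / 2) ^ 2) +
      ‖(12 * I / π : ℂ)‖ * (2 * |C2|) * (Nat.factorial 1 / (π / 2) ^ 1) +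
      ‖(36 / (π : ℂ) ^ 2)‖ * |C4| * (Nat.factorial 0 / (π / 2) ^ 0), fun z hz hr => ?_⟩
    have hz0 : 0 < z.im := by linarith
    have hn : ‖z‖ ≤ 2 * z.im := (norm_le_abs_re_add_abs_im z).trans (by
      rw [abs_of_pos hz0]; linarith)
    have e : dualKernel kerPlus z - mainTerm (-(36 / (π : ℂ) ^ 2)) (-(8640 * I / π))
        (-(18144 / (π : ℂ) ^ 2)) z = z ^ 2 * kerPlus z - 12 * I / π * z * (phiTwo z - 720) -
          36 / (π : ℂ) ^ 2 * (phiFour z - ((nome z ^ 2)⁻¹ + 504)) := by
      rw [dualKernel_plus hz0, mainTerm, nome_sq, ← Complex.exp_neg]; ring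
    have k : ∀ j : ℕ, ∀ C : ℝ, |C| * (z.im ^ j * Real.exp (-π * z.im)) ≤
        |C| * (j.factorial / (π / 2) ^ j) * Real.exp (-(π / 2) * z.im) := fun j C => by
      rw [mul_assoc]
      exact mul_le_mul_of_nonneg_left (pow_mul_exp_le j _ hz0.le) (abs_nonneg C)
    have l : ∀ {C : ℝ} {w : ℂ}, ‖w‖ ≤ C * Real.exp (-π * z.im) →
        ‖w‖ ≤ |C| * Real.exp (-π * z.im) := fun {C w} h =>
      h.trans (mul_le_mul_of_nonneg_right (le_abs_self C) (Real.exp_pos _).le)
    rw [e]
    refine (norm_sub_le _ _).trans ((add_le_add ((norm_sub_le _ _).trans le_rfl) le_rfl).trans ?_)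
    rw [add_mul, add_mul, norm_mul, norm_mul, norm_mul, norm_mul, norm_pow]
    refine add_le_add (add_le_add ?_ ?_) ?_
    · calc ‖z‖ ^ 2 * ‖kerPlus z‖ ≤ (2 * z.im) ^ 2 * (|C0| * Real.exp (-π * z.im)) := by
            gcongr; exact l (h0 z hz hr)
        _ = 4 * (|C0| * (z.im ^ 2 * Real.exp (-π * z.im))) := by ring
        _ ≤ 4 * (|C0| * (Nat.factorial 2 / (π / 2) ^ 2) * Real.exp (-(π / 2) * z.im)) :=
            mul_le_mul_of_nonneg_left (k 2 C0) (by norm_num)
        _ = _ := by ring
    · calc ‖(12 * I / π : ℂ)‖ * ‖z‖ * ‖phiTwo z - 720‖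
          ≤ ‖(12 * I / π : ℂ)‖ * (2 * z.im) * (|C2| * Real.exp (-π * z.im)) := by
            gcongr; exact l (h2 z hz hr)
        _ = ‖(12 * I / π : ℂ)‖ * 2 * (|C2| * (z.im ^ 1 * Real.exp (-π * z.im))) := by ring
        _ ≤ ‖(12 * I / π : ℂ)‖ * 2 * (|C2| * (Nat.factorial 1 / (π / 2) ^ 1) *
            Real.exp (-(π / 2) * z.im)) := mul_le_mul_of_nonneg_left (k 1 C2) (by positivity)
        _ = _ := by ring
    · calc ‖(36 / (π : ℂ) ^ 2)‖ * ‖phiFour z - ((nome z ^ 2)⁻¹ + 504)‖
          ≤ ‖(36 / (π : ℂ) ^ 2)‖ * (|C4| * (z.im ^ 0 * Real.exp (-π * z.im))) := by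
            gcongr; simpa using l (h4 z hz hr)
        _ ≤ ‖(36 / (π : ℂ) ^ 2)‖ * (|C4| * (Nat.factorial 0 / (π / 2) ^ 0) *
            Real.exp (-(π / 2) * z.im)) := mul_le_mul_of_nonneg_left (k 0 C4) (norm_nonneg _)
        _ = _ := by ring

theorem hasExpansion_minus : HasExpansion (-1) kerMinus 1 0 144 := by
  refine ⟨fun z hz => ?_, ?_⟩
  · have hz1 : 0 < (z + 1).im := by simpa using hz
    have hz2 : 0 < (z - 1).im := by simpa using hz
    obtain ⟨a1, a2⟩ := thetaFourth_add_one z
    obtain ⟨c1, c2⟩ := thetaFourth_add_one (z - 1)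
    have hd := (forms_add_one (z - 1)).2.1
    rw [sub_add_cancel] at c1 c2 hd
    have b1 : hA (z - 1) = -hA z := by linear_combination c1
    have b2 : hC (z - 1) = hA z + hC z := by linear_combination -c2 - c1
    rw [dualKernel_minus hz, dualKernel_minus hz1, dualKernel_minus hz2, psiInv, psiInv, psiInv,
      kerMinus, a1, a2, b1, b2, (forms_add_one z).2.1, ← hd]
    field_simp [discForm_ne_zero hz]
    ring
  · obtain ⟨-, -, -, -, hS⟩ := isBigO_kernels
    obtain ⟨C, hB⟩ := exists_strip_bound one_pos (fun z hz => by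
      obtain ⟨ha, hc⟩ := differentiableAt_thetaFourth hz
      obtain ⟨-, hd⟩ := differentiableAt_forms hz
      exact ((((hc.pow 3).mul ((((hc.pow 2).const_mul 2).add ((ha.const_mul 5).mul hc)).add
        ((ha.pow 2).const_mul 5))).div (hd.const_mul 2)
          (mul_ne_zero two_ne_zero (discForm_ne_zero hz))).continuousAt).sub
        ((((by unfold nome; fun_prop : ContinuousAt nome z).pow 2).inv₀
          (pow_ne_zero _ (nome_ne_zero z))).add continuousAt_const)) hS
    refine ⟨|C|, fun z hz hr => ?_⟩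
    have e : dualKernel kerMinus z - mainTerm 1 0 144 z = psiInv z - ((nome z ^ 2)⁻¹ + 144) := by
      rw [dualKernel_minus (by linarith), mainTerm, nome_sq, ← Complex.exp_neg]; ring
    rw [e]
    exact (hB z hz hr).trans (mul_le_mul (le_abs_self C) (Real.exp_le_exp.2
      (by nlinarith [Real.pi_pos])) (Real.exp_pos _).le (abs_nonneg C))

end FA.Viazovska

end
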