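import Fermat.Agent.Viazovska.Forms
import Mathlib.Analysis.SpecialFunctions.Gaussian.FourierTransform
import Mathlib.MeasureTheory.Integral.Prod
import Mathlib.MeasureTheory.Integral.ExpDecay

/-!
# Superpositions of complex Gaussians along rays

The functions `u ↦ ∫ K(y) exp (π i τ(y) u) dy` of `u = |x|²`, their Fourier transforms in eight
variables and their decay.
-/

set_option autoImplicit false

noncomputable section

open Complex MeasureTheory Set Filter GaussianFourier
open scoped Real Topology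

namespace FA.Viazovska

/-- Data on a ray: an exponentially small weight and parameters high enough in the half plane. -/
structure IsRay (y₀ : ℝ) (K τ : ℝ → ℂ) : Prop where
  half_le : 1 / 2 ≤ y₀
  contWeight : ContinuousOn K (Ici y₀)
  contParam : ContinuousOn τ (Ici y₀)
  small : ∃ C, ∀ y ∈ Ici y₀, ‖K y‖ ≤ C * Real.exp (-(π / 2) * y)
  high : ∀ y ∈ Ici y₀, 1 / (4 * y) ≤ (τ y).im

/-- The superposition. -/
def raySum (y₀ : ℝ) (K τ : ℝ → ℂ) (u : ℝ) : ℂ :=
  ∫ y in Ioi y₀, K y * cexp (π * I * τ y * u)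

theorem norm_gauss_cexp (τ : ℂ) (u : ℝ) :
    ‖cexp (π * I * τ * u)‖ = Real.exp (-(π * τ.im * u)) := by
  rw [Complex.norm_exp]; congr 1; simp

theorem integral_gauss_eight {τ : ℂ} (hτ : 0 < τ.im) (ξ : Fin 8 → ℝ) :
    ∫ x : Fin 8 → ℝ, cexp (-(2 * π * I * ∑ i, (ξ i : ℂ) * (x i : ℂ))) *
        cexp (π * I * τ * (∑ i, x i ^ 2 : ℝ)) =
      cexp (π * I * (-1 / τ) * (∑ i, ξ i ^ 2 : ℝ)) / τ ^ 4 := by
  have hb : 0 < (-(π * I * τ)).re := by simp; positivity
  have h := integral_cexp_neg_mul_sum_add hb fun i => -(2 * π * I * (ξ i : ℂ))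
  have hτ0 : τ ≠ 0 := fun e => by simp [e] at hτ
  have hπ : (π : ℂ) ≠ 0 := ofReal_ne_zero.2 Real.pi_ne_zero
  refine Eq.trans (integral_congr_ae (Eventually.of_forall fun x => ?_)) (h.trans ?_)
  · simp only [← Complex.exp_add]
    congr 1
    push_cast
    simp only [Finset.mul_sum, neg_mul, Finset.sum_neg_distrib, mul_assoc]
    ring
  · rw [Fintype.card_fin, show ((8 : ℕ) : ℂ) / 2 = ((4 : ℕ) : ℂ) by norm_num, cpow_natCast,
      show (π : ℂ) / -(π * I * τ) = I / τ by field_simp; linear_combination -I_mul_I,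
      div_pow, I_pow_four, one_div_mul_eq_div]
    congr 2
    push_cast
    simp only [neg_sq, mul_pow, I_sq, ← Finset.mul_sum]
    field_simp
    linear_combination (4 * ∑ i, (ξ i : ℂ) ^ 2) * I_sq

theorem integrable_gauss_eight {t : ℝ} (ht : 0 < t) :
    Integrable (fun x : Fin 8 → ℝ => Real.exp (-(π * t * ∑ i, x i ^ 2))) ∧
      ∫ x : Fin 8 → ℝ, Real.exp (-(π * t * ∑ i, x i ^ 2)) = (t⁻¹) ^ 4 := by
  have hb : 0 < ((π * t : ℝ) : ℂ).re := by rw [ofReal_re]; positivity
  have he : ∀ x : Fin 8 → ℝ, cexp (-((π * t : ℝ) : ℂ) * ∑ i, (x i : ℂ) ^ 2 +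
      ∑ i, (0 : ℂ) * x i) = ((Real.exp (-(π * t * ∑ i, x i ^ 2)) : ℝ) : ℂ) := fun x => by
    rw [ofReal_exp]; congr 1; push_cast; simp
  have h1 := (integrable_cexp_neg_mul_sum_add hb fun _ : Fin 8 => (0 : ℂ)).congr
    (Eventually.of_forall he)
  have h2 := integral_cexp_neg_mul_sum_add hb fun _ : Fin 8 => (0 : ℂ)
  rw [integral_congr_ae (Eventually.of_forall he), integral_complex_ofReal, Fintype.card_fin,
    show ((8 : ℕ) : ℂ) / 2 = ((4 : ℕ) : ℂ) by norm_num, cpow_natCast] at h2
  refine ⟨h1.re.congr (Eventually.of_forall fun x => ofReal_re _),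
    Complex.ofReal_injective (h2.trans ?_)⟩
  have : (π : ℂ) ≠ 0 := ofReal_ne_zero.2 Real.pi_ne_zero
  push_cast
  simp
  field_simp

variable {y₀ : ℝ} {K τ : ℝ → ℂ}

theorem IsRay.pos (h : IsRay y₀ K τ) {y : ℝ} (hy : y ∈ Ici y₀) : 0 < y ∧ 0 < (τ y).im := by
  have hy0 : 0 < y := lt_of_lt_of_le (by norm_num) (h.half_le.trans hy)
  exact ⟨hy0, lt_of_lt_of_le (by positivity) (h.high y hy)⟩

/-- Powers of `1 / Im τ` are harmless. -/
theorem IsRay.integrable_bound (h : IsRay y₀ K τ) (k : ℕ) :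
    IntegrableOn (fun y => ‖K y‖ * ((τ y).im⁻¹) ^ k) (Ioi y₀) := by
  obtain ⟨C, hC⟩ := h.small
  refine Integrable.mono' ((exp_neg_integrableOn_Ioi y₀ (show 0 < π / 4 by positivity)).const_mul
    (|C| * (4 ^ k * (k.factorial / (π / 4) ^ k)))) ?_ ?_
  · refine ContinuousOn.aestronglyMeasurable (ContinuousOn.mul
      (h.contWeight.mono Ioi_subset_Ici_self).norm ?_) measurableSet_Ioi
    exact ((continuous_im.comp_continuousOn (h.contParam.mono Ioi_subset_Ici_self)).inv₀
      fun y hy => (h.pos (Ioi_subset_Ici_self hy)).2.ne').pow k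
  refine (ae_restrict_iff' measurableSet_Ioi).2 (Eventually.of_forall fun y hy => ?_)
  obtain ⟨hy0, ht⟩ := h.pos (Ioi_subset_Ici_self hy)
  have hp := Real.pow_div_factorial_le_exp (π / 4 * y) (by positivity) k
  rw [mul_pow, div_le_iff₀ (by positivity)] at hp
  rw [Real.norm_of_nonneg (by positivity)]
  calc ‖K y‖ * (τ y).im⁻¹ ^ k ≤ |C| * Real.exp (-(π / 2) * y) * (4 * y) ^ k := by
        gcongr
        · exact (hC y (Ioi_subset_Ici_self hy)).trans
            (mul_le_mul_of_nonneg_right (le_abs_self C) (Real.exp_pos _).le)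
        · have := inv_anti₀ (by positivity) (h.high y (Ioi_subset_Ici_self hy))
          rwa [one_div, inv_inv] at this
    _ = |C| * (4 ^ k * ((π / 4) ^ k * y ^ k) / (π / 4) ^ k) * Real.exp (-(π / 2) * y) := by
        field_simp
        ring
    _ ≤ |C| * (4 ^ k * (Real.exp (π / 4 * y) * k.factorial) / (π / 4) ^ k) *
        Real.exp (-(π / 2) * y) := by gcongr
    _ = _ := by
        rw [show -(π / 4) * y = π / 4 * y + -(π / 2) * y by ring, Real.exp_add]
        ring

theorem IsRay.integrable (h : IsRay y₀ K τ) {u : ℝ} (hu : 0 ≤ u) :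
    IntegrableOn (fun y => K y * cexp (π * I * τ y * u)) (Ioi y₀) := by
  refine Integrable.mono' (by simpa [IntegrableOn] using h.integrable_bound 0) ?_ ?_
  · exact (((h.contWeight.mono Ioi_subset_Ici_self)).mul (Complex.continuous_exp.comp_continuousOn
      ((continuousOn_const.mul (h.contParam.mono Ioi_subset_Ici_self)).mul
        continuousOn_const))).aestronglyMeasurable measurableSet_Ioi
  refine (ae_restrict_iff' measurableSet_Ioi).2 (Eventually.of_forall fun y hy => ?_)
  rw [norm_mul, norm_gauss_cexp]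
  refine mul_le_of_le_one_right (norm_nonneg _) (Real.exp_le_one_iff.2 (neg_nonpos.2 ?_))
  exact mul_nonneg (mul_nonneg Real.pi_pos.le (h.pos (Ioi_subset_Ici_self hy)).2.le) hu

theorem IsRay.continuousOn (h : IsRay y₀ K τ) : ContinuousOn (raySum y₀ K τ) (Ici 0) := by
  refine continuousOn_of_dominated (fun u hu => (h.integrable hu).aestronglyMeasurable)
    (bound := fun y => ‖K y‖) (fun u hu => ?_) (by simpa [IntegrableOn] using h.integrable_bound 0)
    (Eventually.of_forall fun y => by fun_prop)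
  refine (ae_restrict_iff' measurableSet_Ioi).2 (Eventually.of_forall fun y hy => ?_)
  rw [norm_mul, norm_gauss_cexp]
  refine mul_le_of_le_one_right (norm_nonneg _) (Real.exp_le_one_iff.2 (neg_nonpos.2 ?_))
  exact mul_nonneg (mul_nonneg Real.pi_pos.le (h.pos (Ioi_subset_Ici_self hy)).2.le) hu

theorem IsRay.decay (h : IsRay y₀ K τ) :
    ∃ C, ∀ u : ℝ, 0 ≤ u → ‖raySum y₀ K τ u‖ * (1 + u) ^ 8 ≤ C := by
  have h0 : IntegrableOn (fun y => ‖K y‖) (Ioi y₀) := by simpa using h.integrable_bound 0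
  refine ⟨∫ y in Ioi y₀, 2 ^ 8 * (‖K y‖ + (Nat.factorial 8) / π ^ 8 * (‖K y‖ * (τ y).im⁻¹ ^ 8)),
    fun u hu => ?_⟩
  rw [← norm_pow_one_add hu, ← norm_mul, raySum, ← integral_mul_const]
  refine norm_integral_le_of_norm_le ((h0.add ((h.integrable_bound 8).const_mul _)).const_mul _) ?_
  refine (ae_restrict_iff' measurableSet_Ioi).2 (Eventually.of_forall fun y hy => ?_)
  obtain ⟨hy0, ht⟩ := h.pos (Ioi_subset_Ici_self hy)
  rw [norm_mul, norm_mul, norm_gauss_cexp, norm_pow_one_add hu, mul_assoc, Real.exp_neg]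
  set e := Real.exp (π * (τ y).im * u) with he
  have he0 : 0 < e := Real.exp_pos _
  have he1 : 1 ≤ e := Real.one_le_exp (by positivity)
  have hu8 : u ^ 8 * (π * (τ y).im) ^ 8 ≤ Nat.factorial 8 * e := by
    have := Real.pow_div_factorial_le_exp (π * (τ y).im * u) (by positivity) 8
    rw [div_le_iff₀ (by positivity), mul_pow] at this
    rw [mul_comm]; linarith
  have h2 : (1 + u) ^ 8 ≤ 2 ^ 8 * (1 + u ^ 8) := by
    rcases le_total u 1 with h' | h'
    · calc (1 + u) ^ 8 ≤ 2 ^ 8 := pow_le_pow_left₀ (by linarith) (by linarith) 8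
        _ ≤ _ := le_mul_of_one_le_right (by norm_num) (by linarith [pow_nonneg hu 8])
    · calc (1 + u) ^ 8 ≤ (2 * u) ^ 8 := pow_le_pow_left₀ (by linarith) (by linarith) 8
        _ ≤ _ := by rw [mul_pow]; linarith
  calc ‖K y‖ * (e⁻¹ * (1 + u) ^ 8)
      ≤ ‖K y‖ * (2 ^ 8 * (1 + (Nat.factorial 8) / π ^ 8 * (τ y).im⁻¹ ^ 8)) := by
        refine mul_le_mul_of_nonneg_left ?_ (norm_nonneg _)
        rw [inv_mul_le_iff₀ he0]
        refine h2.trans ?_
        rw [mul_left_comm]
        refine mul_le_mul_of_nonneg_left ?_ (by norm_num)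
        rw [mul_add, mul_one]
        refine add_le_add he1 ?_
        rw [inv_pow, ← div_eq_mul_inv, div_div, mul_div_assoc', le_div_iff₀ (by positivity),
          ← mul_pow]
        linarith
    _ = _ := by ring
where
  norm_pow_one_add {u : ℝ} (hu : 0 ≤ u) : ‖(((1 + u) ^ 8 : ℝ) : ℂ)‖ = (1 + u) ^ 8 := by
    rw [norm_real, Real.norm_of_nonneg (by positivity)]

/-- **The Fourier transform of a superposition.** -/
theorem IsRay.fourier (h : IsRay y₀ K τ) (ξ : Fin 8 → ℝ) :
    ∫ x : Fin 8 → ℝ, cexp (-(2 * π * I * ∑ i, (ξ i : ℂ) * (x i : ℂ))) *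
        raySum y₀ K τ (∑ i, x i ^ 2) =
      raySum y₀ (fun y => K y / τ y ^ 4) (fun y => -1 / τ y) (∑ i, ξ i ^ 2) := by
  set g : (Fin 8 → ℝ) → ℝ → ℂ := fun x y =>
    cexp (-(2 * π * I * ∑ i, (ξ i : ℂ) * (x i : ℂ))) *
      (K y * cexp (π * I * τ y * (∑ i, x i ^ 2 : ℝ))) with hg
  have hn : ∀ x y, ‖g x y‖ = ‖K y‖ * Real.exp (-(π * (τ y).im * ∑ i, x i ^ 2)) := fun x y => by
    rw [hg, norm_mul, norm_mul, norm_gauss_cexp, Complex.norm_exp]
    simp
  have hm : AEStronglyMeasurable (Function.uncurry g) (volume.prod (volume.restrict (Ioi y₀))) := by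
    rw [← Measure.restrict_univ (μ := (volume : Measure (Fin 8 → ℝ))), Measure.prod_restrict]
    refine ContinuousOn.aestronglyMeasurable ?_ (MeasurableSet.univ.prod measurableSet_Ioi)
    have hmap : MapsTo (Prod.snd : (Fin 8 → ℝ) × ℝ → ℝ) (univ ×ˢ Ioi y₀) (Ici y₀) :=
      fun p hp => Ioi_subset_Ici_self hp.2
    refine ContinuousOn.mul (by fun_prop) ((h.contWeight.comp continuousOn_snd hmap).mul
      (Complex.continuous_exp.comp_continuousOn ((continuousOn_const.mul
        (h.contParam.comp continuousOn_snd hmap)).mul (by fun_prop))))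
  have hint : Integrable (Function.uncurry g) (volume.prod (volume.restrict (Ioi y₀))) := by
    rw [integrable_prod_iff' hm]
    refine ⟨(ae_restrict_iff' measurableSet_Ioi).2 (Eventually.of_forall fun y hy => ?_), ?_⟩
    · have hi := (integrable_gauss_eight (h.pos (Ioi_subset_Ici_self hy)).2).1.const_mul ‖K y‖
      refine hi.mono' (Continuous.aestronglyMeasurable (by
        simp only [Function.uncurry_apply_pair, hg]; fun_prop)) ?_
      exact Eventually.of_forall fun x => (hn x y).le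
    · refine (h.integrable_bound 4).congr ((ae_restrict_iff' measurableSet_Ioi).2
        (Eventually.of_forall fun y hy => ?_))
      simp only [Function.uncurry_apply_pair, hn]
      rw [integral_const_mul, (integrable_gauss_eight (h.pos (Ioi_subset_Ici_self hy)).2).2]
  simp only [raySum, ← integral_const_mul]
  rw [integral_integral_swap hint]
  refine setIntegral_congr_fun measurableSet_Ioi fun y hy => ?_
  simp only [hg, mul_left_comm _ (K y)]
  rw [integral_const_mul, integral_gauss_eight (h.pos (Ioi_subset_Ici_self hy)).2 ξ]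
  ring

end FA.Viazovska

end
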